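/-
S31 — Defs.lean (captain/architect: helper24).  BINDING interface of the S31 route
("a Hecke–Galois datum is unramified outside `S`"), on top of the S29 route.

Idea.  For `τ` in an inertia group at `q ∉ S` show `tr ρ(τ h) = tr ρ(h)` for all `h`
(comparison of the Frobenius traces `π(T_ℓ)` with the Hecke action on
`θ_n(Lpar N) ⊆ J₀(N)[p^n]`, `θ_n` from `S29.KStatement N (p ^ n)`), then conclude `ρ(τ) = 1` from
residual absolute irreducibility (Burnside + Nakayama + non-degeneracy of the trace form).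

Leaf statements (all `Prop`-valued):
* `TraceCoreStatement`     — [L1] traces ⇒ `ρ τ = 1` (Mathlib + Prelude);
* `TraceContStatement`     — [L2a] continuity ⇒ congruence of traces (Mathlib + Prelude);
* `LucasTraceStatement`    — [L2b] `tr (M ^ j) = V_j(tr M, det M)` in rank two (Mathlib);
* `FrobPowStatement N p`   — [L3] `σ^j + ℓ^j σ^{-j} = V_j(T_ℓ, ℓ)` on `p`-power torsion of `J₀(N)`;
* `RootStatement p`        — [L4] Frobenius / inertia on `p^n`-th roots of unity;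
* `ArtinReesStatement`     — [L5] divisibility inside a submodule of `End_ℤ(Λ)` (Mathlib);
* `HeckeCompareStatement N S` — [L6] relations between the `T_ℓ` on `Lpar N` hold on cusp forms.
-/
import Mathlib
import Fermat.Statements.S31
import Fermat.Agent.S29.Defs
import Fermat.Agent.S29.Lucas

set_option autoImplicit false

open ModularCurve CongruenceSubgroup Polynomial

namespace Fermat.Agent.S31

noncomputable section

open Fermat.Agent.S29 (Qb GQ heckeLpar KStatement SpecCoreStatement FDStatement)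
open Fermat.Agent.S29.Lucas (lucasV)
open Fermat.Agent.S41 (Lpar)

/-- The Lucas polynomial `V_j(X, ℓ) ∈ ℤ[X]`: `V_0 = 2`, `V_1 = X`, `V_{j+2} = X V_{j+1} - ℓ V_j`. -/
def lucasPoly (ℓ j : ℕ) : Polynomial ℤ := lucasV (X : Polynomial ℤ) (C (ℓ : ℤ)) j

/-! ### [L1], [L2]: abstract statements on `GaloisRepAdic` -/

/-- **[L1]** If the residual representation is absolutely irreducible and `tr ρ(τ g) = tr ρ(g)`
for all `g`, then `ρ(τ) = 1`. -/
def TraceCoreStatement : Prop :=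
  ∀ (T : Type) [CommRing T] [IsLocalRing T] (ρ : GaloisRepAdic T),
    ρ.residual.IsAbsolutelyIrreducible → ∀ τ : GQ,
      (∀ g : GQ, LinearMap.trace T ρ.V (ρ.ρ (τ * g)) = LinearMap.trace T ρ.V (ρ.ρ g)) →
        ρ.ρ τ = 1

/-- **[L2a]** Adic continuity: at every depth `n` the trace modulo `𝔪 ^ n` only depends on the
restriction to a finite level. -/
def TraceContStatement : Prop :=
  ∀ (T : Type) [CommRing T] [IsLocalRing T] (ρ : GaloisRepAdic T) (n : ℕ),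
    ∃ L : IntermediateField ℚ Qb, FiniteDimensional ℚ L ∧
      ∀ g g' : GQ, (∀ x ∈ L, g x = g' x) →
        LinearMap.trace T ρ.V (ρ.ρ g) - LinearMap.trace T ρ.V (ρ.ρ g') ∈
          IsLocalRing.maximalIdeal T ^ n

/-- **[L2b]** In rank two, `tr (M ^ j) = V_j(a, u)` if `charpoly M = X² - a X + u`. -/
def LucasTraceStatement : Prop :=
  ∀ (T : Type) [CommRing T] (V : Type) [AddCommGroup V] [Module T V] [Module.Free T V]
    [Module.Finite T V], Module.finrank T V = 2 → ∀ (M : Module.End T V) (a u : T),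
      LinearMap.charpoly M = X ^ 2 - C a * X + C u →
        ∀ j : ℕ, LinearMap.trace T V (M ^ j) = lucasV a u j

/-! ### [L3], [L4]: the `J₀(N)` side -/

/-- **[L3]** On `p`-power torsion of `J₀(N)`, for a Frobenius `σ` at `ℓ ∤ N p`:
`σ^j + ℓ^j σ^{-j} = V_j(T_ℓ, ℓ)`. -/
def FrobPowStatement (N p : ℕ) [NeZero N] : Prop :=
  ∀ (ℓ : ℕ) (hℓ : ℓ.Prime), ¬ ℓ ∣ N * p → ∀ A : ValuationSubring Qb, A.LiesOverPrime ℓ →
    ∀ σ : GQ, A.IsFrobeniusAt σ ℓ → ∀ (j : ℕ) (x : JZero N), (∃ n : ℕ, p ^ n • x = 0) →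
      (σ ^ j) • x + (ℓ ^ j) • ((σ ^ j)⁻¹ • x) =
        Polynomial.aeval (heckeOperatorBar N ⟨ℓ, hℓ⟩) (lucasPoly ℓ j) x

/-- **[L4]** Frobenius elements at `ℓ ≠ p` raise `p^n`-th roots of unity to the `ℓ`-th power and
inertia at `ℓ ≠ p` fixes them. -/
def RootStatement (p : ℕ) : Prop :=
  ∀ (n : ℕ) (ζ : Qb), ζ ^ (p ^ n) = 1 →
    (∀ ℓ : ℕ, ℓ.Prime → ℓ ≠ p → ∀ A : ValuationSubring Qb, A.LiesOverPrime ℓ →
      ∀ σ : GQ, A.IsFrobeniusAt σ ℓ → σ ζ = ζ ^ ℓ) ∧
    (∀ ℓ : ℕ, ℓ.Prime → ℓ ≠ p → ∀ A : ValuationSubring Qb, A.LiesOverPrime ℓ →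
      ∀ τ ∈ A.inertiaSubgroupIn ℚ, τ ζ = ζ)

/-! ### [L5]: Artin–Rees -/

/-- **[L5]** (Artin–Rees over `ℤ`) For an additive family `ev : PP → End_ℤ(Λ)` of endomorphisms of
a finite free `ℤ`-module there is `c` such that every `ev P` divisible by `p ^ n` is
`p ^ (n - c)` times some `ev Q`. -/
def ArtinReesStatement : Prop :=
  ∀ (Λ : Type) [AddCommGroup Λ] [Module.Free ℤ Λ] [Module.Finite ℤ Λ] (PP : Type)
    [AddCommGroup PP] (ev : PP →+ Module.End ℤ Λ) (p : ℕ),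
    ∃ c : ℕ, ∀ (n : ℕ) (P : PP), (∀ u : Λ, ∃ w : Λ, ev P u = ((p : ℤ) ^ n) • w) →
      ∃ Q : PP, ev P = ((p : ℤ) ^ (n - c)) • ev Q

/-! ### [L6]: the two Hecke algebras -/

/-- Index type of the Hecke operators of `heckeAlgebra N 2 S` away from the level. -/
abbrev HIdx (N : ℕ) (S : Set ℕ) : Type := {ℓ : ℕ // ℓ.Prime ∧ ¬ ℓ ∣ N ∧ ℓ ∉ S}

/-- Formal `ℤ`-combinations of powers of the `T_ℓ`, `ℓ ∉ S`, `ℓ ∤ N` (no products of different
`T_ℓ` are needed). -/
abbrev HPoly (N : ℕ) (S : Set ℕ) : Type := HIdx N S →₀ Polynomial ℤ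

variable (N : ℕ) [NeZero N] (S : Set ℕ)

/-- Evaluation on the parabolic lattice: `P ↦ Σ_ℓ P_ℓ(T_ℓ) ∈ End_ℤ(Lpar N)`. -/
def evL : HPoly N S →+ Module.End ℤ (Lpar N) :=
  Finsupp.liftAddHom fun i : HIdx N S =>
    ((Polynomial.aeval (heckeLpar N i.1 i.2.1 i.2.2.1) :
      Polynomial ℤ →ₐ[ℤ] Module.End ℤ (Lpar N)) : Polynomial ℤ →+ Module.End ℤ (Lpar N))

/-- Evaluation in the Hecke algebra of cusp forms: `P ↦ Σ_ℓ P_ℓ(T_ℓ) ∈ heckeAlgebra N 2 S`. -/
def evC : HPoly N S →+ CuspForm.heckeAlgebra N 2 S :=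
  Finsupp.liftAddHom fun i : HIdx N S =>
    ((Polynomial.aeval (CuspForm.heckeAlgebra.T (k := 2) i.2.1 i.2.2.1 i.2.2.2) :
      Polynomial ℤ →ₐ[ℤ] CuspForm.heckeAlgebra N 2 S) :
      Polynomial ℤ →+ CuspForm.heckeAlgebra N 2 S)

theorem evL_single (i : HIdx N S) (Q : Polynomial ℤ) :
    evL N S (Finsupp.single i Q) = Polynomial.aeval (heckeLpar N i.1 i.2.1 i.2.2.1) Q := by
  simp [evL]

theorem evC_single (i : HIdx N S) (Q : Polynomial ℤ) :
    evC N S (Finsupp.single i Q) =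
      Polynomial.aeval (CuspForm.heckeAlgebra.T (k := 2) i.2.1 i.2.2.1 i.2.2.2) Q := by
  simp [evC]

/-- **[L6]** Every `ℤ`-linear relation between powers of the `T_ℓ` on `Lpar N = Hom_par(Γ₀(N), ℤ)`
holds on `S₂(Γ₀(N))` (period map: `S16.periodMap_heckeTLin`, S21 injectivity,
`Hom_par(Γ₀(N), ℂ) = ℂ · Lpar N`). -/
def HeckeCompareStatement : Prop :=
  ∀ P : HPoly N S, evL N S P = 0 → evC N S P = 0

end

end Fermat.Agent.S31
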