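/-
S31 route, leaf [L3] — FrobPow.lean (helper22).

`frobPowStatement_of_specCore : SpecCoreStatement N p → FrobPowStatement N p`
(the Prop of `S31/Defs.lean`, verbatim):  on the `p`-power torsion of `J₀(N)`, for every
Frobenius element `σ` at a prime `ℓ ∤ N p`,

  `σ^j x + ℓ^j σ^{-j} x = V_j(T_ℓ, ℓ) x`,

where `V_j(X, ℓ) ∈ ℤ[X]` is the Lucas polynomial (`lucasPoly ℓ j`).

Proof.  The Eichler–Shimura relation `σ² y − T_ℓ (σ y) + ℓ y = 0` on `p`-power torsion
(`S29.ESUse.frobenius_quadratic`), applied to `y := σ⁻¹ x`, gives `T_ℓ x = σ x + ℓ σ⁻¹ x` for every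
`p`-power torsion `x`; the claim follows by two-step induction on `j` (no commutation of `T_ℓ` with
the Galois action is needed: `T_ℓ` is only ever applied to `σ^{±(j+1)} x`).  The induction is done
for an arbitrary group acting on an arbitrary abelian group (`frobPow_gen`).
-/
import Fermat.Agent.S31.Defs
import Fermat.Agent.S29.ESUse

set_option autoImplicit false

open ModularCurve Polynomial

namespace Fermat.Agent.S31.FrobPow

open Fermat.Agent.S29 (Qb GQ SpecCoreStatement)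
open Fermat.Agent.S29.Lucas (lucasV lucasV_zero lucasV_one lucasV_add_two)

/-- `V_0 = 2`. -/
theorem lucasPoly_zero (ℓ : ℕ) : lucasPoly ℓ 0 = 2 := by
  rw [lucasPoly, lucasV_zero]

/-- `V_1 = X`. -/
theorem lucasPoly_one (ℓ : ℕ) : lucasPoly ℓ 1 = X := by
  rw [lucasPoly, lucasV_one]

/-- `V_{j+2} = X V_{j+1} - ℓ V_j`. -/
theorem lucasPoly_add_two (ℓ j : ℕ) :
    lucasPoly ℓ (j + 2) = X * lucasPoly ℓ (j + 1) - C (ℓ : ℤ) * lucasPoly ℓ j := by
  rw [lucasPoly, lucasV_add_two]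
  rfl

section Generic

variable {M : Type*} [AddCommGroup M] {G : Type*} [Group G] [DistribMulAction G M]

/-- From the quadratic relation `σ² y − T (σ y) + ℓ y = 0` on a `G`-stable class `P`:
`T x = σ x + ℓ σ⁻¹ x` on `P`. -/
theorem hecke_eq_of_quadratic (P : M → Prop) (hP : ∀ (g : G) (x : M), P x → P (g • x))
    (T : Module.End ℤ M) (σ : G) (ℓ : ℕ)
    (hq : ∀ y : M, P y → σ • σ • y - T (σ • y) + ℓ • y = 0)
    {x : M} (hx : P x) :
    T x = σ • x + ℓ • (σ⁻¹ • x) := by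
  have h := hq (σ⁻¹ • x) (hP σ⁻¹ x hx)
  rw [smul_inv_smul] at h
  have e : T x - (σ • x + ℓ • (σ⁻¹ • x)) = -(σ • x - T x + ℓ • σ⁻¹ • x) := by abel
  rw [← sub_eq_zero, e, h, neg_zero]

theorem aeval_lucasPoly_add_two (T : Module.End ℤ M) (ℓ j : ℕ) (x : M) :
    Polynomial.aeval T (lucasPoly ℓ (j + 2)) x =
      T (Polynomial.aeval T (lucasPoly ℓ (j + 1)) x) -
        ℓ • (Polynomial.aeval T (lucasPoly ℓ j) x) := by
  rw [lucasPoly_add_two, map_sub, map_mul, map_mul, Polynomial.aeval_X, Polynomial.aeval_C,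
    LinearMap.sub_apply, Module.End.mul_apply, Module.End.mul_apply,
    Module.algebraMap_end_apply, natCast_zsmul]

theorem aeval_lucasPoly_zero (T : Module.End ℤ M) (ℓ : ℕ) (x : M) :
    Polynomial.aeval T (lucasPoly ℓ 0) x = x + x := by
  rw [lucasPoly_zero]
  have h2 : (Polynomial.aeval T (2 : Polynomial ℤ)) = (2 : Module.End ℤ M) :=
    map_ofNat (Polynomial.aeval T) 2
  rw [h2, ← one_add_one_eq_two, LinearMap.add_apply, Module.End.one_apply]

/-- **Abstract core of [L3]**: a group `G` acting on an abelian group `M`, `P` a `G`-stable class of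
elements on which `σ² − T σ + ℓ = 0`; then `σ^j + ℓ^j σ^{-j} = V_j(T, ℓ)` on `P`. -/
theorem frobPow_gen (P : M → Prop) (hP : ∀ (g : G) (x : M), P x → P (g • x))
    (T : Module.End ℤ M) (σ : G) (ℓ : ℕ)
    (hq : ∀ y : M, P y → σ • σ • y - T (σ • y) + ℓ • y = 0)
    (j : ℕ) (x : M) (hx : P x) :
    (σ ^ j) • x + (ℓ ^ j) • ((σ ^ j)⁻¹ • x) = Polynomial.aeval T (lucasPoly ℓ j) x := by
  induction j using Nat.twoStepInduction with
  | zero =>
    rw [aeval_lucasPoly_zero, pow_zero, pow_zero, inv_one, one_smul, one_smul]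
  | one =>
    rw [lucasPoly_one, pow_one, pow_one, Polynomial.aeval_X]
    exact (hecke_eq_of_quadratic P hP T σ ℓ hq hx).symm
  | more j ih1 ih2 =>
    rw [aeval_lucasPoly_add_two, ← ih1, ← ih2, map_add, map_nsmul,
      hecke_eq_of_quadratic P hP T σ ℓ hq (hP (σ ^ (j + 1)) x hx),
      hecke_eq_of_quadratic P hP T σ ℓ hq (hP (σ ^ (j + 1))⁻¹ x hx)]
    have e1 : σ • (σ ^ (j + 1)) • x = (σ ^ (j + 2)) • x := by
      rw [← mul_smul, ← pow_succ']
    have e2 : σ⁻¹ • (σ ^ (j + 1)) • x = (σ ^ j) • x := by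
      rw [← mul_smul, pow_succ', inv_mul_cancel_left]
    have e3 : σ • (σ ^ (j + 1))⁻¹ • x = (σ ^ j)⁻¹ • x := by
      rw [← mul_smul, pow_succ, mul_inv_rev, mul_inv_cancel_left]
    have e4 : σ⁻¹ • (σ ^ (j + 1))⁻¹ • x = (σ ^ (j + 2))⁻¹ • x := by
      rw [← mul_smul, ← mul_inv_rev, ← pow_succ]
    have f1 : ℓ ^ (j + 1) • ℓ • (σ ^ (j + 2))⁻¹ • x = ℓ ^ (j + 2) • (σ ^ (j + 2))⁻¹ • x := by
      rw [smul_smul, ← pow_succ]
    have f2 : ℓ • ℓ ^ j • (σ ^ j)⁻¹ • x = ℓ ^ (j + 1) • (σ ^ j)⁻¹ • x := by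
      rw [smul_smul, ← pow_succ']
    rw [e1, e2, e3, e4, nsmul_add, nsmul_add, f1, f2]
    abel

end Generic

/-- **[L3]** (`S31/Defs.lean`, verbatim). -/
theorem frobPowStatement_of_specCore (N p : ℕ) [NeZero N] :
    SpecCoreStatement N p → FrobPowStatement N p := by
  intro h ℓ hℓ hℓNp A hA σ hσ j x hx
  exact frobPow_gen (M := JZero N) (G := GQ) (fun y : JZero N => ∃ n : ℕ, p ^ n • y = 0)
    (fun g y hy => Fermat.Agent.S29.ESUse.smul_torsion N p g hy)
    (heckeOperatorBar N ⟨ℓ, hℓ⟩) σ ℓ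
    (fun y hy => Fermat.Agent.S29.ESUse.frobenius_quadratic (h ℓ hℓ hℓNp A hA) hσ hy) j x hx

end Fermat.Agent.S31.FrobPow
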