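import Mathlib
import Fermat.Agent.S31.Defs
import Fermat.Agent.S21.Main
import Fermat.Agent.S16.HeckePairB
import Fermat.Agent.S16.LiftLemma
import Fermat.Agent.S22.GammaFG
import Fermat.Agent.S41.Defs
import Fermat.Agent.S41.ParMem

/-!
# S31, leaf [L6] (B-copy): relations between the `T_ℓ` on `Lpar N` hold on cusp forms

`heckeCompareStatement N S : HeckeCompareStatement N S`, i.e. for every formal `ℤ`-combination
`P` of powers of the `T_ℓ` (`ℓ ∉ S`, `ℓ ∤ N`):  `evL N S P = 0 → evC N S P = 0`.

Route: the period map `f ↦ periodHomPair N (f, 0)` is injective (S21), takes values in the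
`ℂ`-span of the complexifications of the integral parabolic homomorphisms (S21 + S16 lift lemma)
and intertwines `T_ℓ` on cusp forms with `heckeTHom` on `Hom(Γ₀(N), ℂ)` (S16).  A generic lemma
(`aeval_apply_intertwine`) transports integer polynomials in the operators through any additive
intertwining map.
-/

set_option autoImplicit false

open CongruenceSubgroup ModularCurve ModularCurve.Period Polynomial
open scoped MatrixGroups

namespace Fermat.Agent.S31.HeckeCompareB

open Fermat.Agent.S16 (heckeTHom tData)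
open Fermat.Agent.S41 (Lpar)
open Fermat.Agent.S29 (heckeLpar)

/-! ### Generic transport of integer polynomials through an intertwining additive map -/

section Generic

variable {R₁ R₂ : Type*} [CommRing R₁] [CommRing R₂] {M₁ M₂ : Type*}
  [AddCommGroup M₁] [Module R₁ M₁] [AddCommGroup M₂] [Module R₂ M₂]

theorem pow_apply_intertwine (L : M₁ →+ M₂) (T₁ : Module.End R₁ M₁) (T₂ : Module.End R₂ M₂)
    (h : ∀ a, L (T₁ a) = T₂ (L a)) (n : ℕ) (a : M₁) : L ((T₁ ^ n) a) = (T₂ ^ n) (L a) := by
  induction n generalizing a with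
  | zero => simp
  | succ n ih => rw [pow_succ, pow_succ, Module.End.mul_apply, Module.End.mul_apply, ih, h]

theorem aeval_apply_intertwine (L : M₁ →+ M₂) (T₁ : Module.End R₁ M₁) (T₂ : Module.End R₂ M₂)
    (h : ∀ a, L (T₁ a) = T₂ (L a)) (Q : Polynomial ℤ) (a : M₁) :
    L (Polynomial.aeval T₁ Q a) = Polynomial.aeval T₂ Q (L a) := by
  induction Q using Polynomial.induction_on' with
  | add p q hp hq =>
    rw [map_add, map_add, LinearMap.add_apply, LinearMap.add_apply, map_add, hp, hq]
  | monomial n c =>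
    rw [Polynomial.aeval_monomial, Polynomial.aeval_monomial, Module.End.mul_apply,
      Module.End.mul_apply, algebraMap_int_eq, eq_intCast, eq_intCast,
      Module.End.intCast_apply, Module.End.intCast_apply, map_zsmul,
      pow_apply_intertwine L T₁ T₂ h]

end Generic

/-! ### The three evaluation maps -/

variable (N : ℕ) [NeZero N] (S : Set ℕ)

/-- `Hom(Γ₀(N), ℂ)`. -/
abbrev HC : Type := Additive (Gamma0 N) →+ ℂ

/-- `T_ℓ` on `Hom(Γ₀(N), ℂ)` as a `ℂ`-linear endomorphism. -/
noncomputable def TV (i : HIdx N S) : Module.End ℂ (HC N) :=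
  haveI : Fact (i.1.Prime) := ⟨i.2.1⟩
  { toFun := fun φ => heckeTHom N i.1 i.2.2.1 φ
    map_add' := fun φ ψ => (tData N i.1 i.2.2.1).op_add φ ψ
    map_smul' := fun c φ => (tData N i.1 i.2.2.1).op_smul c φ }

/-- Evaluation on `Hom(Γ₀(N), ℂ)`: `P ↦ Σ_ℓ P_ℓ(T_ℓ)`. -/
noncomputable def evH : HPoly N S →+ Module.End ℂ (HC N) :=
  Finsupp.liftAddHom fun i : HIdx N S =>
    ((Polynomial.aeval (TV N S i) : Polynomial ℤ →ₐ[ℤ] Module.End ℂ (HC N)) :
      Polynomial ℤ →+ Module.End ℂ (HC N))

omit [NeZero N] in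
theorem evH_single (i : HIdx N S) (Q : Polynomial ℤ) :
    evH N S (Finsupp.single i Q) = Polynomial.aeval (TV N S i) Q := by
  simp [evH]

/-- Complexification of integral parabolic homomorphisms. -/
noncomputable def jC : Lpar N →+ HC N where
  toFun x := (Int.castAddHom ℂ).comp x.1
  map_zero' := AddMonoidHom.comp_zero _
  map_add' x y := AddMonoidHom.comp_add _ x.1 y.1

/-- The period map on the first factor. -/
noncomputable def per : CuspForm (Gamma0 N) 2 →+ HC N where
  toFun f := periodHomPair N (f, 0)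
  map_zero' := by
    have : ((0 : CuspForm (Gamma0 N) 2), (0 : CuspForm (Gamma0 N) 2)) = 0 := rfl
    rw [this, map_zero]
  map_add' f g := by
    have : ((f + g, (0 : CuspForm (Gamma0 N) 2)) : CuspForm (Gamma0 N) 2 × CuspForm (Gamma0 N) 2)
        = (f, 0) + (g, 0) := by
      rw [Prod.mk_add_mk, add_zero]
    rw [this, map_add]

theorem per_injective : Function.Injective (per N) := by
  intro f g h
  exact congrArg Prod.fst (Fermat.Agent.S21.periodHomPair_injective_Gamma0 N h)

omit [NeZero N] in
theorem jC_heckeLpar (i : HIdx N S) (x : Lpar N) :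
    jC N (heckeLpar N i.1 i.2.1 i.2.2.1 x) = TV N S i (jC N x) :=
  haveI : Fact (i.1.Prime) := ⟨i.2.1⟩
  ((tData N i.1 i.2.2.1).op_comp (Int.castAddHom ℂ) x.1).symm

theorem per_heckeTLin (i : HIdx N S) (f : CuspForm (Gamma0 N) 2) :
    per N (CuspForm.heckeTLin 2 i.2.1 i.2.2.1 f) = TV N S i (per N f) := by
  have : Fact (i.1.Prime) := ⟨i.2.1⟩
  have h1 := Fermat.Agent.S16.HeckePairB.periodHomPair_heckeTLin i.2.1 i.2.2.1 f 0
  rw [map_zero] at h1
  exact h1

/-- The period classes lie in the `ℂ`-span of the complexified lattice. -/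
theorem per_mem_span (f : CuspForm (Gamma0 N) 2) :
    per N f ∈ Submodule.span ℂ (Set.range (jC N)) := by
  have hfg : Group.FG ↥(Gamma0 N) := Fermat.Agent.S22.gamma0_fg N
  have hvpar : per N f ∈ parabolicHoms ℂ (Gamma0 N) ℂ :=
    Fermat.Agent.S21.range_periodHomPair_le_Gamma0 N ⟨(f, 0), rfl⟩
  have h1 := Fermat.Agent.S16.LiftLemma.mem_span_toC
    {γ : Gamma0 N | ((γ : SL(2, ℤ)) : Matrix (Fin 2) (Fin 2) ℤ).trace ^ 2 = 4} (per N f)
    (fun γ hγ => hvpar γ hγ)
  refine Submodule.span_mono ?_ h1
  rintro _ ⟨ψ, hψ, rfl⟩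
  exact ⟨⟨ψ, fun γ hγ => hψ γ hγ⟩, rfl⟩

/-! ### Transport of the evaluations -/

theorem jC_evL (P : HPoly N S) (x : Lpar N) : jC N (evL N S P x) = evH N S P (jC N x) := by
  induction P using Finsupp.induction_linear with
  | zero => simp
  | add P Q hP hQ =>
    rw [map_add, map_add, LinearMap.add_apply, LinearMap.add_apply, map_add, hP, hQ]
  | single i Q =>
    rw [evL_single, evH_single]
    exact aeval_apply_intertwine (jC N) _ _ (jC_heckeLpar N S i) Q x

/-- Coercion to endomorphisms commutes with evaluating integer polynomials in the Hecke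
algebra. -/
theorem coe_aeval (a : CuspForm.heckeAlgebra N 2 S) (Q : Polynomial ℤ) :
    (((Polynomial.aeval a : Polynomial ℤ →ₐ[ℤ] CuspForm.heckeAlgebra N 2 S) Q :
        CuspForm.heckeAlgebra N 2 S) : Module.End ℂ (CuspForm (Gamma0 N) 2)) =
      Polynomial.aeval (a : Module.End ℂ (CuspForm (Gamma0 N) 2)) Q := by
  induction Q using Polynomial.induction_on' with
  | add p q hp hq => rw [map_add, map_add, Subalgebra.coe_add, hp, hq]
  | monomial n c =>
    rw [Polynomial.aeval_monomial, Polynomial.aeval_monomial, Subalgebra.coe_mul,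
      Subalgebra.coe_pow, eq_intCast, eq_intCast, SubringClass.coe_intCast]

theorem per_evC (P : HPoly N S) (f : CuspForm (Gamma0 N) 2) :
    per N ((evC N S P : Module.End ℂ (CuspForm (Gamma0 N) 2)) f) = evH N S P (per N f) := by
  induction P using Finsupp.induction_linear with
  | zero => simp
  | add P Q hP hQ =>
    rw [map_add, map_add, Subalgebra.coe_add, LinearMap.add_apply, LinearMap.add_apply, map_add,
      hP, hQ]
  | single i Q =>
    rw [evC_single, evH_single, coe_aeval, CuspForm.heckeAlgebra.coe_T]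
    exact aeval_apply_intertwine (per N) _ _ (per_heckeTLin N S i) Q f

/-- **[L6]** Every `ℤ`-linear relation between powers of the `T_ℓ` on `Lpar N` holds on
`S₂(Γ₀(N))`. -/
theorem heckeCompareStatement : HeckeCompareStatement N S := by
  intro P hP
  have hker : Submodule.span ℂ (Set.range (jC N)) ≤ LinearMap.ker (evH N S P) := by
    rw [Submodule.span_le]
    rintro _ ⟨x, rfl⟩
    rw [SetLike.mem_coe, LinearMap.mem_ker, ← jC_evL, hP, LinearMap.zero_apply, map_zero]
  apply Subtype.ext
  refine LinearMap.ext fun f => ?_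
  apply per_injective N
  rw [per_evC, LinearMap.mem_ker.mp (hker (per_mem_span N f))]
  simp

end Fermat.Agent.S31.HeckeCompareB
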