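/-
S31, leaf [L7a] JSide, B-copy — JSideB.lean (helper88; A = helper99, S31/JSide.lean).

The `J₀(N)`-side of the trace congruence.  For `τ` in an inertia group at `q ∤ N p` and any
`g ∈ G_ℚ`, on a finite level `L₀` both `τ g` and `g` are powers of Frobenius elements
`σ₁^{j₁}`, `σ₂^{j₂}` at primes `ℓ₁, ℓ₂ ∉ S`, `ℓ_i ∤ N p`, such that the difference
`V_{j₁}(T_{ℓ₁}, ℓ₁) − V_{j₂}(T_{ℓ₂}, ℓ₂)` of Lucas polynomials in the Hecke operators on the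
parabolic lattice `Lpar N` maps `Lpar N` into `p^n · Lpar N`.
-/
import Mathlib
import Fermat.Agent.S31.Defs
import Fermat.Agent.S29.ESUse
import Fermat.Agent.S29.FinLevel
import Fermat.Agent.S41.LparFree

set_option autoImplicit false

open ModularCurve CongruenceSubgroup Polynomial

namespace Fermat.Agent.S31.JSideB

open Fermat.Agent.S29 (Qb GQ heckeLpar KStatement SpecCoreStatement FDStatement)
open Fermat.Agent.S41 (Lpar)

noncomputable section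

/-! ### Generic algebra -/

/-- An additive map intertwining two endomorphisms intertwines all their polynomials. -/
theorem aeval_intertwine {A B : Type*} [AddCommGroup A] [AddCommGroup B] (θ : A →+ B)
    (TA : Module.End ℤ A) (TB : Module.End ℤ B) (h : ∀ u : A, θ (TA u) = TB (θ u))
    (Q : Polynomial ℤ) (u : A) :
    θ (Polynomial.aeval TA Q u) = Polynomial.aeval TB Q (θ u) := by
  have hpow : ∀ (k : ℕ) (u : A), θ ((TA ^ k) u) = (TB ^ k) (θ u) := by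
    intro k
    induction k with
    | zero => intro u; simp
    | succ k ih =>
      intro u
      rw [pow_succ, pow_succ, Module.End.mul_apply, Module.End.mul_apply, ih, h]
  induction Q using Polynomial.induction_on' with
  | add P Q hP hQ =>
    rw [map_add, map_add, LinearMap.add_apply, LinearMap.add_apply, map_add, hP, hQ]
  | monomial k a =>
    rw [Polynomial.aeval_monomial, Polynomial.aeval_monomial, Module.End.mul_apply,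
      Module.End.mul_apply, Module.algebraMap_end_apply, Module.algebraMap_end_apply,
      map_zsmul, hpow]

/-- Congruent multiples agree on torsion elements. -/
theorem nsmul_eq_of_modEq {M : Type*} [AddCommMonoid M] {a b m : ℕ} (h : a ≡ b [MOD m])
    {y : M} (hy : m • y = 0) : a • y = b • y := by
  have key : ∀ c : ℕ, c • y = (c % m) • y := by
    intro c
    conv_lhs => rw [← Nat.mod_add_div c m, add_nsmul, mul_nsmul, hy, smul_zero, add_zero]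
  rw [key a, key b, h]

/-- Equal powers of a primitive root have congruent exponents. -/
theorem modEq_of_pow_eq {R : Type*} [CommRing R] [IsDomain R] {ζ : R} {m : ℕ} [NeZero m]
    (hζ : IsPrimitiveRoot ζ m) {a b : ℕ} (h : ζ ^ a = ζ ^ b) : a ≡ b [MOD m] := by
  have key : ∀ c : ℕ, ζ ^ c = ζ ^ (c % m) := by
    intro c
    conv_lhs => rw [← Nat.mod_add_div c m, pow_add, pow_mul, hζ.pow_eq_one, one_pow, mul_one]
  rw [key a, key b] at h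
  exact hζ.pow_inj (Nat.mod_lt _ (NeZero.pos m)) (Nat.mod_lt _ (NeZero.pos m)) h

/-! ### Galois-theoretic bookkeeping on a stable level -/

/-- Two automorphisms agreeing on a Galois-stable field have inverses agreeing on it. -/
theorem inv_eq_on_of_eq_on (L : IntermediateField ℚ Qb)
    (hstab : ∀ σ : GQ, ∀ a ∈ L, σ a ∈ L) (γ γ' : GQ) (h : ∀ a ∈ L, γ a = γ' a) :
    ∀ a ∈ L, γ⁻¹ a = γ'⁻¹ a := by
  intro a ha
  have h1 : γ'⁻¹ a ∈ L := hstab γ'⁻¹ a ha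
  have h2 : γ (γ'⁻¹ a) = a := by
    rw [h _ h1]
    show (γ' * γ'⁻¹) a = a
    rw [mul_inv_cancel]; rfl
  have h3 : γ⁻¹ (γ (γ'⁻¹ a)) = γ'⁻¹ a := by
    show (γ⁻¹ * γ) (γ'⁻¹ a) = γ'⁻¹ a
    rw [inv_mul_cancel]; rfl
  rw [h2] at h3
  exact h3

section Action

variable {M : Type*} [MulAction GQ M]

/-- If `x` is fixed by everything fixing `L` pointwise and `γ = γ'` on `L`, then
`γ • x = γ' • x`. -/
theorem smul_eq_of_eq_on (L : IntermediateField ℚ Qb) (x : M)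
    (hx : ∀ η : GQ, (∀ a ∈ L, η a = a) → η • x = x) (γ γ' : GQ) (h : ∀ a ∈ L, γ a = γ' a) :
    γ • x = γ' • x := by
  have h1 : ∀ a ∈ L, (γ'⁻¹ * γ) a = a := by
    intro a ha
    show γ'⁻¹ (γ a) = a
    rw [h a ha]
    show (γ'⁻¹ * γ') a = a
    rw [inv_mul_cancel]; rfl
  have h2 := hx _ h1
  rw [mul_smul] at h2
  calc γ • x = γ' • (γ'⁻¹ • (γ • x)) := by rw [smul_inv_smul]
    _ = γ' • x := by rw [h2]

end Action

/-! ### Roots of unity -/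

/-- A primitive `m`-th root of unity in `ℚ̄`. -/
theorem exists_primitiveRoot (m : ℕ) (hm : m ≠ 0) : ∃ ζ : Qb, IsPrimitiveRoot ζ m := by
  haveI : NeZero m := ⟨hm⟩
  haveI : NeZero ((m : ℕ) : Qb) := NeZero.charZero
  exact HasEnoughRootsOfUnity.exists_primitiveRoot Qb m

/-- Powers of a Frobenius element at `ℓ ≠ p` raise `p^n`-th roots of unity to the power
`ℓ^j`. -/
theorem frob_pow_root {p : ℕ} (hRoot : RootStatement p) {ℓ : ℕ} (hℓ : ℓ.Prime) (hℓp : ℓ ≠ p)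
    (A : ValuationSubring Qb) (hA : A.LiesOverPrime ℓ) (σ : GQ) (hσ : A.IsFrobeniusAt σ ℓ)
    (n : ℕ) : ∀ (j : ℕ) (η : Qb), η ^ (p ^ n) = 1 → (σ ^ j) η = η ^ (ℓ ^ j) := by
  intro j
  induction j with
  | zero => intro η _; simp
  | succ j ih =>
    intro η hη
    have h1 : σ η = η ^ ℓ := (hRoot n η hη).1 ℓ hℓ hℓp A hA σ hσ
    have h2 : (η ^ ℓ) ^ (p ^ n) = 1 := by rw [← pow_mul, mul_comm, pow_mul, hη, one_pow]
    have h3 : (σ ^ (j + 1)) η = (σ ^ j) (σ η) := by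
      rw [pow_succ]; rfl
    rw [h3, h1, ih _ h2, ← pow_mul, pow_succ, mul_comm]

/-! ### The finite level -/

/-- A finite Galois-stable level containing `L₀` and `ζ` whose absolute Galois group fixes
`θ (Lpar N)`. -/
theorem exists_level (N m : ℕ) [NeZero N] (hm : m ≠ 0) (θ : Lpar N →+ JZero N)
    (htors : ∀ u : Lpar N, m • θ u = 0)
    (L₀ : IntermediateField ℚ Qb) (hL₀ : FiniteDimensional ℚ L₀) (ζ : Qb)
    (hζ : IsIntegral ℚ ζ) :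
    ∃ L : IntermediateField ℚ Qb, FiniteDimensional ℚ L ∧ (∀ σ : GQ, ∀ a ∈ L, σ a ∈ L) ∧
      L₀ ≤ L ∧ ζ ∈ L ∧ ∀ η : GQ, (∀ a ∈ L, η a = a) → ∀ u : Lpar N, η • θ u = θ u := by
  classical
  haveI := Fermat.Agent.S41.LparFree.lpar_finite N
  obtain ⟨t, ht⟩ := (Module.Finite.fg_top : (⊤ : Submodule ℤ (Lpar N)).FG)
  obtain ⟨L₁, hL₁fin, -, hL₁⟩ := Fermat.Agent.S29.FinLevel.jzero_finiteLevel N (t.image θ) m hm
    (by
      intro x hx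
      obtain ⟨u, _, rfl⟩ := Finset.mem_image.mp hx
      exact htors u)
  haveI := hL₀
  haveI := hL₁fin
  haveI : FiniteDimensional ℚ (IntermediateField.adjoin ℚ ({ζ} : Set Qb)) :=
    IntermediateField.adjoin.finiteDimensional hζ
  obtain ⟨L, hLge, hLfin, hLstab⟩ := Fermat.Agent.S29.FinLevel.exists_stable_ge
    (L₀ ⊔ L₁ ⊔ IntermediateField.adjoin ℚ ({ζ} : Set Qb))
  have hL₀L : L₀ ≤ L := le_trans (le_trans le_sup_left le_sup_left) hLge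
  have hL₁L : L₁ ≤ L := le_trans (le_trans le_sup_right le_sup_left) hLge
  have hζL : ζ ∈ L :=
    hLge (le_sup_right (a := L₀ ⊔ L₁) (IntermediateField.mem_adjoin_simple_self ℚ ζ))
  refine ⟨L, hLfin, hLstab, hL₀L, hζL, fun η hη u => ?_⟩
  have hη₁ : ∀ z ∈ L₁, η z = z := fun z hz => hη z (hL₁L hz)
  have hu : u ∈ Submodule.span ℤ (t : Set (Lpar N)) := by rw [ht]; trivial
  induction hu using Submodule.span_induction with
  | mem u hu => exact hL₁ η hη₁ (θ u) (Finset.mem_image_of_mem θ hu)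
  | zero =>
    rw [map_zero]
    exact map_zero (Fermat.Agent.S29.ESUse.gal N η)
  | add u v _ _ hu hv =>
    rw [map_add, ← Fermat.Agent.S29.ESUse.gal_apply, map_add, Fermat.Agent.S29.ESUse.gal_apply,
      Fermat.Agent.S29.ESUse.gal_apply, hu, hv]
  | smul a u _ hu =>
    rw [map_zsmul, Fermat.Agent.S29.galois_smul_zsmul, hu]

/-! ### The main statement -/

/-- **[L7a]** the `J₀(N)`-side of the trace congruence (statement of `S31/JSide.lean`). -/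
theorem exists_frob_pair (N p : ℕ) [NeZero N] (hp : p.Prime) (n : ℕ) (S : Finset ℕ)
    (hK : KStatement N (p ^ n)) (hSpec : SpecCoreStatement N p) (hFrob : FrobPowStatement N p)
    (hRoot : RootStatement p) (hFD : FDStatement)
    (L₀ : IntermediateField ℚ Qb) (hL₀ : FiniteDimensional ℚ L₀)
    (q : ℕ) (hq : q.Prime) (hqNp : ¬ q ∣ N * p)
    (P : ValuationSubring Qb) (hP : P.LiesOverPrime q)
    (τ : GQ) (hτ : τ ∈ P.inertiaSubgroupIn ℚ) (g : GQ) :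
    ∃ (ℓ₁ ℓ₂ : ℕ) (h₁ : ℓ₁.Prime) (h₂ : ℓ₂.Prime) (h₁N : ¬ ℓ₁ ∣ N) (h₂N : ¬ ℓ₂ ∣ N)
      (A₁ A₂ : ValuationSubring Qb) (σ₁ σ₂ : GQ) (j₁ j₂ : ℕ),
      ℓ₁ ∉ S ∧ ℓ₂ ∉ S ∧ ℓ₁ ≠ p ∧ ℓ₂ ≠ p ∧
      A₁.LiesOverPrime ℓ₁ ∧ A₁.IsFrobeniusAt σ₁ ℓ₁ ∧
      A₂.LiesOverPrime ℓ₂ ∧ A₂.IsFrobeniusAt σ₂ ℓ₂ ∧
      (∀ x ∈ L₀, (τ * g) x = (σ₁ ^ j₁) x) ∧ (∀ x ∈ L₀, g x = (σ₂ ^ j₂) x) ∧
      ∀ u : Lpar N, ∃ w : Lpar N,
        (Polynomial.aeval (heckeLpar N ℓ₁ h₁ h₁N) (lucasPoly ℓ₁ j₁) -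
          Polynomial.aeval (heckeLpar N ℓ₂ h₂ h₂N) (lucasPoly ℓ₂ j₂)) u = ((p : ℤ) ^ n) • w := by
  classical
  obtain ⟨θ, htors, hker, hhecke⟩ := hK
  have hm : p ^ n ≠ 0 := pow_ne_zero n hp.ne_zero
  haveI : NeZero (p ^ n) := ⟨hm⟩
  obtain ⟨ζ, hζ⟩ := exists_primitiveRoot (p ^ n) hm
  have hζint : IsIntegral ℚ ζ := (Fermat.Agent.S29.FinLevel.isAlgebraic_rat.isAlgebraic ζ).isIntegral
  obtain ⟨L, hLfin, hLstab, hL₀L, hζL, hfix⟩ := exists_level N (p ^ n) hm θ htors L₀ hL₀ ζ hζint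
  have hNp : N * p ≠ 0 := Nat.mul_ne_zero (NeZero.ne N) hp.ne_zero
  -- the two Frobenius approximations
  obtain ⟨ℓ₁, A₁, σ₁, j₁, h₁, h₁S, hA₁, hσ₁, hτg⟩ := hFD L hLfin (S ∪ (N * p).primeFactors) (τ * g)
  obtain ⟨ℓ₂, A₂, σ₂, j₂, h₂, h₂S, hA₂, hσ₂, hg⟩ := hFD L hLfin (S ∪ (N * p).primeFactors) g
  have h₁Np : ¬ ℓ₁ ∣ N * p := fun hd =>
    h₁S (Finset.mem_union_right _ (Nat.mem_primeFactors.mpr ⟨h₁, hd, hNp⟩))
  have h₂Np : ¬ ℓ₂ ∣ N * p := fun hd =>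
    h₂S (Finset.mem_union_right _ (Nat.mem_primeFactors.mpr ⟨h₂, hd, hNp⟩))
  have h₁N : ¬ ℓ₁ ∣ N := fun hd => h₁Np (Dvd.dvd.mul_right hd p)
  have h₂N : ¬ ℓ₂ ∣ N := fun hd => h₂Np (Dvd.dvd.mul_right hd p)
  have h₁p : ℓ₁ ≠ p := fun he => h₁Np (he ▸ Dvd.intro_left N rfl)
  have h₂p : ℓ₂ ≠ p := fun he => h₂Np (he ▸ Dvd.intro_left N rfl)
  have hqp : q ≠ p := fun he => hqNp (he ▸ Dvd.intro_left N rfl)
  refine ⟨ℓ₁, ℓ₂, h₁, h₂, h₁N, h₂N, A₁, A₂, σ₁, σ₂, j₁, j₂,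
    fun h => h₁S (Finset.mem_union_left _ h), fun h => h₂S (Finset.mem_union_left _ h),
    h₁p, h₂p, hA₁, hσ₁, hA₂, hσ₂, fun x hx => hτg x (hL₀L hx), fun x hx => hg x (hL₀L hx), ?_⟩
  -- the congruence `ℓ₁^{j₁} ≡ ℓ₂^{j₂} mod p^n`
  have hζ1 : ζ ^ (p ^ n) = 1 := hζ.pow_eq_one
  have hcong : ℓ₁ ^ j₁ ≡ ℓ₂ ^ j₂ [MOD p ^ n] := by
    apply modEq_of_pow_eq hζ
    have e1 : (τ * g) ζ = ζ ^ (ℓ₁ ^ j₁) := by
      rw [hτg ζ hζL]
      exact frob_pow_root hRoot h₁ h₁p A₁ hA₁ σ₁ hσ₁ n j₁ ζ hζ1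
    have e2 : g ζ = ζ ^ (ℓ₂ ^ j₂) := by
      rw [hg ζ hζL]
      exact frob_pow_root hRoot h₂ h₂p A₂ hA₂ σ₂ hσ₂ n j₂ ζ hζ1
    have e3 : τ (g ζ) = g ζ := by
      have h1 : (g ζ) ^ (p ^ n) = 1 := by rw [← map_pow, hζ1, map_one]
      exact (hRoot n (g ζ) h1).2 q hq hqp P hP τ hτ
    have e4 : (τ * g) ζ = τ (g ζ) := rfl
    rw [← e1, e4, e3, e2]
  -- Hecke clause at `ℓ ≠ p^n`
  have hne : ∀ {ℓ : ℕ}, ℓ.Prime → ℓ ≠ p → ℓ ≠ p ^ n := by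
    intro ℓ hℓ hℓp he
    rcases Nat.eq_zero_or_pos n with h0 | hpos
    · rw [h0, pow_zero] at he
      exact hℓ.one_lt.ne' he
    · have hdvd : p ∣ ℓ := he ▸ dvd_pow_self p hpos.ne'
      exact hℓp ((Nat.prime_dvd_prime_iff_eq hp hℓ).mp hdvd).symm
  intro u
  -- torsion facts
  have htor : ∀ (γ : GQ) (v : Lpar N), ∃ k : ℕ, p ^ k • (γ • θ v) = 0 := fun γ v =>
    Fermat.Agent.S29.ESUse.smul_torsion N p γ ⟨n, htors v⟩
  have htor' : ∃ k : ℕ, p ^ k • θ u = 0 := ⟨n, htors u⟩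
  set x := θ u with hx
  have hxfix : ∀ η : GQ, (∀ a ∈ L, η a = a) → η • x = x := fun η hη => hfix η hη u
  -- `g` and `τ g` against the Frobenius powers, on `x`
  have hSpq := hSpec q hq hqNp P hP
  have a1 : (τ * g) • x = (σ₁ ^ j₁) • x := smul_eq_of_eq_on L x hxfix _ _ hτg
  have a2 : (τ * g)⁻¹ • x = (σ₁ ^ j₁)⁻¹ • x :=
    smul_eq_of_eq_on L x hxfix _ _ (inv_eq_on_of_eq_on L hLstab _ _ hτg)
  have a3 : g • x = (σ₂ ^ j₂) • x := smul_eq_of_eq_on L x hxfix _ _ hg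
  have a4 : g⁻¹ • x = (σ₂ ^ j₂)⁻¹ • x :=
    smul_eq_of_eq_on L x hxfix _ _ (inv_eq_on_of_eq_on L hLstab _ _ hg)
  -- inertia acts trivially
  have b1 : (τ * g) • x = g • x := by
    rw [mul_smul]
    exact Fermat.Agent.S29.ESUse.inertia_smul_eq hSpq hτ (htor g u)
  have b2 : (τ * g)⁻¹ • x = g⁻¹ • x := by
    rw [mul_inv_rev, mul_smul]
    congr 1
    exact Fermat.Agent.S29.ESUse.inertia_smul_eq hSpq (Subgroup.inv_mem _ hτ) htor'
  -- the two Lucas identities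
  have c1 := hFrob ℓ₁ h₁ h₁Np A₁ hA₁ σ₁ hσ₁ j₁ x htor'
  have c2 := hFrob ℓ₂ h₂ h₂Np A₂ hA₂ σ₂ hσ₂ j₂ x htor'
  rw [← a1, ← a2, b1, b2] at c1
  rw [← a3, ← a4] at c2
  have hy : (p ^ n) • (g⁻¹ • x) = 0 := by
    have h0 : (p ^ n) • x = 0 := htors u
    rw [← Fermat.Agent.S29.ESUse.gal_apply, ← map_nsmul, h0, map_zero]
  have c3 : (ℓ₁ ^ j₁) • (g⁻¹ • x) = (ℓ₂ ^ j₂) • (g⁻¹ • x) := nsmul_eq_of_modEq hcong hy
  have heq : Polynomial.aeval (heckeOperatorBar N ⟨ℓ₁, h₁⟩) (lucasPoly ℓ₁ j₁) x =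
      Polynomial.aeval (heckeOperatorBar N ⟨ℓ₂, h₂⟩) (lucasPoly ℓ₂ j₂) x := by
    rw [← c1, ← c2, c3]
  -- transport to `Lpar N` and use the kernel clause
  have i1 := aeval_intertwine θ (heckeLpar N ℓ₁ h₁ h₁N) (heckeOperatorBar N ⟨ℓ₁, h₁⟩)
    (fun v => hhecke ℓ₁ h₁ h₁N (hne h₁ h₁p) v) (lucasPoly ℓ₁ j₁) u
  have i2 := aeval_intertwine θ (heckeLpar N ℓ₂ h₂ h₂N) (heckeOperatorBar N ⟨ℓ₂, h₂⟩)
    (fun v => hhecke ℓ₂ h₂ h₂N (hne h₂ h₂p) v) (lucasPoly ℓ₂ j₂) u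
  have hzero : θ ((Polynomial.aeval (heckeLpar N ℓ₁ h₁ h₁N) (lucasPoly ℓ₁ j₁) -
      Polynomial.aeval (heckeLpar N ℓ₂ h₂ h₂N) (lucasPoly ℓ₂ j₂)) u) = 0 := by
    rw [LinearMap.sub_apply, map_sub, i1, i2, ← hx, heq, sub_self]
  obtain ⟨z, hz⟩ := hker _ hzero
  refine ⟨z, ?_⟩
  rw [hz]
  push_cast
  rfl

end

end Fermat.Agent.S31.JSideB
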