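/-
S31 — Plan.lean (captain: helper24).  Top assembly of the S31 route in hypothesis form.

`result_of_leaves`: from the leaf Props of `S31/Defs.lean` ([L1], [L2a], [L2b], [L5], [L6]) and the
J-side statement `JSideStatement N p` (this file; proved in `S31/JSide*.lean` from
`KStatement N (p ^ n)`, `SpecCoreStatement N p`, `FrobPowStatement N p`, `RootStatement p`,
`FDStatement`), the frozen S31 conclusion `H.ρ.IsUnramifiedAt q`.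

Proof.  For `τ` in inertia at `q ∉ S` and `g ∈ G_ℚ`, for every `k`:
`tr ρ(τ g) - tr ρ(g) ∈ 𝔪_T ^ k`.  Indeed with `c` from Artin–Rees [L5] and `n = k + c` the J-side
gives Frobenius elements `σ_i` at `ℓ_i ∉ S` with `τ g = σ₁^{j₁}`, `g = σ₂^{j₂}` on the level of
`ρ mod 𝔪^k` and `V_{j₁}(T_{ℓ₁}) - V_{j₂}(T_{ℓ₂}) ∈ p^n End(Lpar N)` pointwise; by [L5] + [L6] the
same element of the Hecke algebra of cusp forms is `p^k` times a Hecke element; apply `π` and use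
`tr ρ(σ_i)^{j_i} = V_{j_i}(π T_{ℓ_i}, ℓ_i)` [L2b].  Krull's intersection theorem and [L1] finish.
-/
import Mathlib
import Fermat.Statements.S31
import Fermat.Agent.S31.Defs
import Fermat.Agent.S41.LparFree

set_option autoImplicit false

open ModularCurve CongruenceSubgroup Polynomial

namespace Fermat.Agent.S31

noncomputable section

open Fermat.Agent.S29 (Qb GQ heckeLpar KStatement SpecCoreStatement FDStatement)
open Fermat.Agent.S29.Lucas (lucasV)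
open Fermat.Agent.S41 (Lpar)

/-- **The J-side of S31** (for all depths `n`): for `τ` in an inertia group at `q ∤ N p` and any
`g`, there are Frobenius elements `σ₁`, `σ₂` at primes `ℓ₁, ℓ₂ ∉ S`, `ℓ_i ∤ N`, and exponents with
`τ g = σ₁ ^ j₁`, `g = σ₂ ^ j₂` on a prescribed finite level `L₀` and
`V_{j₁}(T_{ℓ₁}, ℓ₁) - V_{j₂}(T_{ℓ₂}, ℓ₂)` divisible by `p ^ n` on `Lpar N`. -/
def JSideStatement (N p : ℕ) [NeZero N] : Prop :=
  ∀ (n : ℕ) (S : Finset ℕ) (L₀ : IntermediateField ℚ Qb), FiniteDimensional ℚ L₀ →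
    ∀ q : ℕ, q.Prime → ¬ q ∣ N * p → ∀ P : ValuationSubring Qb, P.LiesOverPrime q →
      ∀ τ : GQ, τ ∈ P.inertiaSubgroupIn ℚ → ∀ g : GQ,
        ∃ (ℓ₁ ℓ₂ : ℕ) (h₁ : ℓ₁.Prime) (h₂ : ℓ₂.Prime) (h₁N : ¬ ℓ₁ ∣ N) (h₂N : ¬ ℓ₂ ∣ N)
          (A₁ A₂ : ValuationSubring Qb) (σ₁ σ₂ : GQ) (j₁ j₂ : ℕ),
          ℓ₁ ∉ S ∧ ℓ₂ ∉ S ∧ ℓ₁ ≠ p ∧ ℓ₂ ≠ p ∧
          A₁.LiesOverPrime ℓ₁ ∧ A₁.IsFrobeniusAt σ₁ ℓ₁ ∧
          A₂.LiesOverPrime ℓ₂ ∧ A₂.IsFrobeniusAt σ₂ ℓ₂ ∧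
          (∀ x ∈ L₀, (τ * g) x = (σ₁ ^ j₁) x) ∧ (∀ x ∈ L₀, g x = (σ₂ ^ j₂) x) ∧
          ∀ u : Lpar N, ∃ w : Lpar N,
            (Polynomial.aeval (heckeLpar N ℓ₁ h₁ h₁N) (lucasPoly ℓ₁ j₁) -
              Polynomial.aeval (heckeLpar N ℓ₂ h₂ h₂N) (lucasPoly ℓ₂ j₂)) u = ((p : ℤ) ^ n) • w

namespace Plan

/-- Evaluating the Lucas polynomial: `V_j(X, ℓ)(x) = V_j(x, ℓ)`. -/
theorem aeval_lucasPoly {R : Type*} [CommRing R] (x : R) (ℓ j : ℕ) :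
    Polynomial.aeval x (lucasPoly ℓ j) = lucasV x (ℓ : R) j := by
  have h := Fermat.Agent.S29.Lucas.lucasV_map
    ((Polynomial.aeval x : Polynomial ℤ →ₐ[ℤ] R) : Polynomial ℤ →+* R)
    (X : Polynomial ℤ) (C (ℓ : ℤ)) j
  simp only [AlgHom.coe_toRingHom, aeval_X, aeval_C] at h
  rw [lucasPoly, h]
  congr 1
  simp

/-- A ring hom applied to the value of a Lucas polynomial. -/
theorem map_aeval_lucasPoly {R R' : Type*} [CommRing R] [CommRing R'] (f : R →+* R') (x : R)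
    (ℓ j : ℕ) :
    f (Polynomial.aeval x (lucasPoly ℓ j)) = lucasV (f x) (ℓ : R') j := by
  rw [aeval_lucasPoly, Fermat.Agent.S29.Lucas.lucasV_map, map_natCast]

variable {p : ℕ} {N : ℕ} [NeZero N] {S : Finset ℕ}
  {𝒪 : Type} [CommRing 𝒪] [IsDomain 𝒪] [IsDiscreteValuationRing 𝒪]
  [IsAdicComplete (IsLocalRing.maximalIdeal 𝒪) 𝒪]
  {θ : CuspForm.heckeAlgebra N 2 (↑S : Set ℕ) →+* IsLocalRing.ResidueField 𝒪}
  {T : Type} [CommRing T] [IsLocalRing T] [IsNoetherianRing T]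
  [IsAdicComplete (IsLocalRing.maximalIdeal T) T] [Algebra 𝒪 T] [IsLocalHom (algebraMap 𝒪 T)]
  [Module.Finite 𝒪 T] [Module.Free 𝒪 T]

omit [IsAdicComplete (IsLocalRing.maximalIdeal 𝒪) 𝒪] [IsNoetherianRing T]
  [IsAdicComplete (IsLocalRing.maximalIdeal T) T] [Module.Finite 𝒪 T] [Module.Free 𝒪 T] in
/-- `p` lies in the maximal ideal of `T`. -/
theorem natCast_mem_maximalIdeal (hp𝒪 : (p : 𝒪) ∈ IsLocalRing.maximalIdeal 𝒪) :
    (p : T) ∈ IsLocalRing.maximalIdeal T := by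
  have h : algebraMap 𝒪 T (p : 𝒪) ∈ IsLocalRing.maximalIdeal T := by
    rw [IsLocalRing.mem_maximalIdeal, mem_nonunits_iff] at hp𝒪 ⊢
    exact fun hu => hp𝒪 (isUnit_of_map_unit (algebraMap 𝒪 T) _ hu)
  rwa [map_natCast] at h

/-- The trace of `ρ` at a power of a Frobenius element at `ℓ ∉ S`, `ℓ ∤ N`. -/
theorem trace_frob_pow (hL2b : LucasTraceStatement)
    (H : CuspForm.HeckeGaloisRepDatum N (↑S : Set ℕ) 𝒪 θ T)
    (i : HIdx N (↑S : Set ℕ)) (A : ValuationSubring Qb) (hA : A.LiesOverPrime i.1)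
    (σ : GQ) (hσ : A.IsFrobeniusAt σ i.1) (j : ℕ) :
    LinearMap.trace T H.ρ.V (H.ρ.ρ (σ ^ j)) =
      H.π (evC N (↑S : Set ℕ) (Finsupp.single i (lucasPoly i.1 j))) := by
  rw [evC_single, map_aeval_lucasPoly, map_pow]
  exact hL2b T H.ρ.V H.ρ.finrank_eq (H.ρ.ρ σ) _ _
    (H.charpoly_frob i.1 i.2.1 i.2.2.1 i.2.2.2 A hA σ hσ) j

/-- **The trace congruence.** -/
theorem trace_sub_mem (hL2a : TraceContStatement)
    (hL2b : LucasTraceStatement) (hL5 : ArtinReesStatement)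
    (hL6 : HeckeCompareStatement N (↑S : Set ℕ)) (hJ : JSideStatement N p)
    (hp𝒪 : (p : 𝒪) ∈ IsLocalRing.maximalIdeal 𝒪)
    (H : CuspForm.HeckeGaloisRepDatum N (↑S : Set ℕ) 𝒪 θ T)
    (q : ℕ) (hq : q.Prime) (hqNp : ¬ q ∣ N * p) (P : ValuationSubring Qb)
    (hP : P.LiesOverPrime q) (τ : GQ) (hτ : τ ∈ P.inertiaSubgroupIn ℚ) (g : GQ) (k : ℕ) :
    LinearMap.trace T H.ρ.V (H.ρ.ρ (τ * g)) - LinearMap.trace T H.ρ.V (H.ρ.ρ g) ∈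
      IsLocalRing.maximalIdeal T ^ k := by
  have : Module.Finite ℤ (Lpar N) := Fermat.Agent.S41.LparFree.lpar_finite N
  have : Module.Free ℤ (Lpar N) := Fermat.Agent.S41.LparFree.lpar_free N
  obtain ⟨c, hc⟩ := hL5 (Lpar N) (HPoly N (↑S : Set ℕ)) (evL N (↑S : Set ℕ)) p
  obtain ⟨L₀, hL₀fd, hL₀⟩ := hL2a T H.ρ k
  obtain ⟨ℓ₁, ℓ₂, h₁, h₂, h₁N, h₂N, A₁, A₂, σ₁, σ₂, j₁, j₂, h₁S, h₂S, -, -, hA₁, hσ₁, hA₂, hσ₂,
    hg₁, hg₂, hdiv⟩ := hJ (k + c) S L₀ hL₀fd q hq hqNp P hP τ hτ g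
  set i₁ : HIdx N (↑S : Set ℕ) := ⟨ℓ₁, h₁, h₁N, by simpa using h₁S⟩ with hi₁
  set i₂ : HIdx N (↑S : Set ℕ) := ⟨ℓ₂, h₂, h₂N, by simpa using h₂S⟩ with hi₂
  set PP : HPoly N (↑S : Set ℕ) :=
    Finsupp.single i₁ (lucasPoly ℓ₁ j₁) - Finsupp.single i₂ (lucasPoly ℓ₂ j₂) with hPP
  have hev : evL N (↑S : Set ℕ) PP =
      Polynomial.aeval (heckeLpar N ℓ₁ h₁ h₁N) (lucasPoly ℓ₁ j₁) -
        Polynomial.aeval (heckeLpar N ℓ₂ h₂ h₂N) (lucasPoly ℓ₂ j₂) := by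
    rw [hPP, map_sub, evL_single, evL_single]
  obtain ⟨Q, hQ⟩ := hc (k + c) PP (fun u => by rw [hev]; exact hdiv u)
  rw [Nat.add_sub_cancel] at hQ
  -- transfer to the Hecke algebra of cusp forms
  have h0 : evL N (↑S : Set ℕ) (PP - ((p : ℤ) ^ k) • Q) = 0 := by
    rw [map_sub, map_zsmul, hQ, sub_self]
  have h1 := hL6 _ h0
  rw [map_sub, map_zsmul, sub_eq_zero] at h1
  -- apply `π`
  have hpT : (p : T) ∈ IsLocalRing.maximalIdeal T := natCast_mem_maximalIdeal hp𝒪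
  have h2 : H.π (evC N (↑S : Set ℕ) PP) ∈ IsLocalRing.maximalIdeal T ^ k := by
    rw [h1, zsmul_eq_mul, map_mul, map_intCast, Int.cast_pow, Int.cast_natCast]
    exact Ideal.mul_mem_right _ _ (Ideal.pow_mem_pow hpT k)
  have h3 : H.π (evC N (↑S : Set ℕ) PP) =
      LinearMap.trace T H.ρ.V (H.ρ.ρ (σ₁ ^ j₁)) - LinearMap.trace T H.ρ.V (H.ρ.ρ (σ₂ ^ j₂)) := by
    rw [hPP, map_sub, map_sub, trace_frob_pow hL2b H i₁ A₁ hA₁ σ₁ hσ₁ j₁,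
      trace_frob_pow hL2b H i₂ A₂ hA₂ σ₂ hσ₂ j₂]
  have e1 := hL₀ (τ * g) (σ₁ ^ j₁) hg₁
  have e2 := hL₀ g (σ₂ ^ j₂) hg₂
  rw [h3] at h2
  have := (Ideal.sub_mem _ (Ideal.add_mem _ e1 h2) e2)
  convert this using 1
  ring

/-- **S31 from its leaves.** -/
theorem result_of_leaves (hL1 : TraceCoreStatement) (hL2a : TraceContStatement)
    (hL2b : LucasTraceStatement) (hL5 : ArtinReesStatement)
    (hL6 : HeckeCompareStatement N (↑S : Set ℕ)) (hJ : JSideStatement N p)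
    (hp : p.Prime) (hp𝒪 : (p : 𝒪) ∈ IsLocalRing.maximalIdeal 𝒪) (hpS : p ∈ S)
    (hNS : ∀ q : ℕ, q.Prime → q ∣ N → q ∈ S)
    (H : CuspForm.HeckeGaloisRepDatum N (↑S : Set ℕ) 𝒪 θ T)
    (q : ℕ) (hq : q.Prime) (hqS : q ∉ S) :
    H.ρ.IsUnramifiedAt q := by
  intro P hP τ hτ
  have hqNp : ¬ q ∣ N * p := by
    intro h
    rcases (Nat.Prime.dvd_mul hq).1 h with h | h
    · exact hqS (hNS q hq h)
    · rw [(Nat.prime_dvd_prime_iff_eq hq hp).1 h] at hqS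
      exact hqS hpS
  refine hL1 T H.ρ H.residual_absIrr τ fun g => ?_
  have hmem : LinearMap.trace T H.ρ.V (H.ρ.ρ (τ * g)) - LinearMap.trace T H.ρ.V (H.ρ.ρ g) ∈
      (⨅ k : ℕ, IsLocalRing.maximalIdeal T ^ k) :=
    (Ideal.mem_iInf).2 fun k =>
      trace_sub_mem hL2a hL2b hL5 hL6 hJ hp𝒪 H q hq hqNp P hP τ hτ g k
  rw [Ideal.iInf_pow_eq_bot_of_isLocalRing (IsLocalRing.maximalIdeal T) Ideal.IsPrime.ne_top',
    Ideal.mem_bot, sub_eq_zero] at hmem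
  exact hmem

end Plan

end

end Fermat.Agent.S31
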