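/-
S31 route, leaf [L4] (helper68): Frobenius elements and inertia on `p ^ n`-th roots of unity.

* `RootN.eq_one_of_residue_eq_one` : a `p ^ n`-th root of unity in a valuation subring `A` of `ℚ̄`
  over `ℓ ≠ p` that reduces to `1` is `1` (induction on `n`; at the bottom it would be a primitive
  `p`-th root of unity, excluded by `S29.Cyc.residue_ne_one`);
* `RootN.eq_of_residue_eq` : two `p ^ n`-th roots of unity with the same reduction are equal;
* `rootStatement` : `RootStatement p` of `S31/Defs.lean`.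
-/
import Mathlib
import Fermat.Agent.S29.Cyc
import Fermat.Agent.S31.Defs

set_option autoImplicit false

namespace Fermat.Agent.S31

open Fermat.Agent.S29 (Qb GQ)

namespace RootN

/-- A `p ^ n`-th root of unity in `A` (over `ℓ ≠ p`) which reduces to `1` is `1`. -/
theorem eq_one_of_residue_eq_one (A : ValuationSubring Qb) {ℓ p : ℕ} (hℓ : ℓ.Prime)
    (hp : p.Prime) (hℓp : ℓ ≠ p) (hℓA : (ℓ : Qb) ∈ A.nonunits) :
    ∀ (n : ℕ) (η : A), η ^ (p ^ n) = 1 → IsLocalRing.residue A η = 1 → η = 1 := by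
  intro n
  induction n with
  | zero =>
    intro η h _
    simpa using h
  | succ n ih =>
    intro η h hres
    have h1 : (η ^ p) ^ (p ^ n) = 1 := by
      rw [← pow_mul, ← pow_succ']
      exact h
    have h2 : η ^ p = 1 := ih (η ^ p) h1 (by rw [map_pow, hres, one_pow])
    by_contra hne
    have h3 : ((η : A) : Qb) ^ p = 1 := by
      have := congrArg (fun x : A => (x : Qb)) h2
      simpa using this
    have h4 : ((η : A) : Qb) ≠ 1 := by
      intro h5
      exact hne (Subtype.ext (by simpa using h5))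
    have hprim : IsPrimitiveRoot ((η : A) : Qb) p := by
      have : Fact p.Prime := ⟨hp⟩
      have h6 := orderOf_eq_prime h3 h4
      rw [← h6]
      exact IsPrimitiveRoot.orderOf _
    exact Fermat.Agent.S29.Cyc.residue_ne_one A hℓ hp hℓp hℓA η hprim hres

/-- Two `p ^ n`-th roots of unity in `A` (over `ℓ ≠ p`) with the same reduction are equal. -/
theorem eq_of_residue_eq (A : ValuationSubring Qb) {ℓ p : ℕ} (hℓ : ℓ.Prime)
    (hp : p.Prime) (hℓp : ℓ ≠ p) (hℓA : (ℓ : Qb) ∈ A.nonunits) (n : ℕ) (a b : A)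
    (ha : a ^ (p ^ n) = 1) (hb : b ^ (p ^ n) = 1)
    (h : IsLocalRing.residue A a = IsLocalRing.residue A b) : a = b := by
  have hpos : 0 < p ^ n := pow_pos hp.pos n
  have hb' : b ^ (p ^ n - 1) * b = 1 := by
    rw [← pow_succ, Nat.sub_add_cancel hpos, hb]
  have h1 : a * b ^ (p ^ n - 1) = 1 := by
    apply eq_one_of_residue_eq_one A hℓ hp hℓp hℓA n
    · rw [mul_pow, ha, one_mul, ← pow_mul, mul_comm, pow_mul, hb, one_pow]
    · rw [map_mul, h, ← map_mul, mul_comm, hb', map_one]
  calc a = a * (b ^ (p ^ n - 1) * b) := by rw [hb', mul_one]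
    _ = (a * b ^ (p ^ n - 1)) * b := by rw [mul_assoc]
    _ = b := by rw [h1, one_mul]

end RootN

/-- **[L4]** Frobenius elements at `ℓ ≠ p` raise `p ^ n`-th roots of unity to the `ℓ`-th power
and inertia at `ℓ ≠ p` fixes them. -/
theorem rootStatement (p : ℕ) (hp : p.Prime) : RootStatement p := by
  intro n ζ hζ
  have hpn : p ^ n ≠ 0 := pow_ne_zero n hp.ne_zero
  refine ⟨?_, ?_⟩
  · intro ℓ hℓ hℓp A hA σ hσ
    have hζA : ζ ∈ A := Fermat.Agent.S29.Cyc.root_mem A hpn hζ
    have hσζ : (σ ζ) ^ (p ^ n) = 1 := by rw [← map_pow, hζ, map_one]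
    have hσζA : σ ζ ∈ A := Fermat.Agent.S29.Cyc.root_mem A hpn hσζ
    set z : A := ⟨ζ, hζA⟩ with hz
    set w : A := ⟨σ ζ, hσζA⟩ with hw
    have h1 := hσ.smul_residue_eq (IsLocalRing.residue A z)
    have h2 : (⟨σ, hσ.mem_decompositionSubgroup⟩ : A.decompositionSubgroup ℚ) • z = w := by
      apply Subtype.ext
      rfl
    rw [← IsLocalRing.ResidueField.residue_smul, h2, ← map_pow] at h1
    have hzp : z ^ (p ^ n) = 1 := Subtype.ext (by push_cast; exact hζ)
    have hwp : w ^ (p ^ n) = 1 := Subtype.ext (by push_cast; exact hσζ)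
    have h3 : w = z ^ ℓ :=
      RootN.eq_of_residue_eq A hℓ hp hℓp hA n w (z ^ ℓ) hwp
        (by rw [← pow_mul, mul_comm, pow_mul, hzp, one_pow]) h1
    have h4 := congrArg (fun x : A => (x : Qb)) h3
    simpa using h4
  · intro ℓ hℓ hℓp A hA τ hτ
    obtain ⟨g, hg, rfl⟩ := hτ
    have hζA : ζ ∈ A := Fermat.Agent.S29.Cyc.root_mem A hpn hζ
    have hgζ : ((g : GQ) ζ) ^ (p ^ n) = 1 := by rw [← map_pow, hζ, map_one]
    have hgζA : (g : GQ) ζ ∈ A := Fermat.Agent.S29.Cyc.root_mem A hpn hgζ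
    set z : A := ⟨ζ, hζA⟩ with hz
    set w : A := ⟨(g : GQ) ζ, hgζA⟩ with hw
    have h1 : g • IsLocalRing.residue A z = IsLocalRing.residue A z := by
      have := congrArg (fun f : RingAut (IsLocalRing.ResidueField A) => f (IsLocalRing.residue A z))
        (MonoidHom.mem_ker.mp hg)
      exact this
    have h2 : g • z = w := by
      apply Subtype.ext
      rfl
    rw [← IsLocalRing.ResidueField.residue_smul, h2] at h1
    have hzp : z ^ (p ^ n) = 1 := Subtype.ext (by push_cast; exact hζ)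
    have hwp : w ^ (p ^ n) = 1 := Subtype.ext (by push_cast; exact hgζ)
    have h3 : w = z := RootN.eq_of_residue_eq A hℓ hp hℓp hA n w z hwp hzp h1
    exact congrArg (fun x : A => (x : Qb)) h3

end Fermat.Agent.S31
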