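/-
S31, leaf (L2)+(L3) [Span]+[TrPair], B-copy — SpanB.lean (helper88).

Step B of the S31 route (board #2069): for a `GaloisRepAdic T` over a local ring `T` with
absolutely irreducible residual representation,

* `span_range_toMatrix_eq_top` : the matrices of the `ρ σ` (in any basis) span `M₂(T)` over `T`
  (residual Burnside — landed `S53/Burnside.lean` — plus Nakayama);
* `eq_one_of_trace_mul_eq`     : if `tr ρ(τ g) = tr ρ(g)` for all `g`, then `ρ(τ) = 1`
  (the trace pairing on `M₂(T)` is nondegenerate).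
-/
import Mathlib
import Fermat.Prelude.Def_GaloisRep_Adic
import Fermat.Agent.S53.Burnside

set_option autoImplicit false

namespace Fermat.Agent.S31.SpanB

open scoped TensorProduct
open IsLocalRing

local notation "Γℚ" => (AlgebraicClosure ℚ ≃ₐ[ℚ] AlgebraicClosure ℚ)

variable {T : Type} [CommRing T] [IsLocalRing T]

omit [IsLocalRing T] in
/-- A matrix all of whose entries lie in an ideal `I` lies in `I • ⊤`. -/
theorem mem_smul_top_of_entries {I : Ideal T} (D : Matrix (Fin 2) (Fin 2) T)
    (hD : ∀ i j, D i j ∈ I) :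
    D ∈ I • (⊤ : Submodule T (Matrix (Fin 2) (Fin 2) T)) := by
  rw [Matrix.matrix_eq_sum_single D]
  refine Submodule.sum_mem _ fun i _ => Submodule.sum_mem _ fun j _ => ?_
  have h : Matrix.single i j (D i j) = D i j • Matrix.single i j (1 : T) := by
    rw [Matrix.smul_single, smul_eq_mul, mul_one]
  rw [h]
  exact Submodule.smul_mem_smul (hD i j) Submodule.mem_top

/-- **Burnside + Nakayama.**  For an adic Galois representation over a local ring with
absolutely irreducible residual representation, the matrices of the `ρ σ` span `M₂(T)`. -/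
theorem span_range_toMatrix_eq_top (ρ : GaloisRepAdic T)
    (h : ρ.residual.IsAbsolutelyIrreducible) (b : Module.Basis (Fin 2) T ρ.V) :
    Submodule.span T (Set.range fun σ : Γℚ => LinearMap.toMatrix b b (ρ.ρ σ)) = ⊤ := by
  classical
  set 𝒜 : Submodule T (Matrix (Fin 2) (Fin 2) T) :=
    Submodule.span T (Set.range fun σ : Γℚ => LinearMap.toMatrix b b (ρ.ρ σ)) with h𝒜
  set k := ResidueField T
  let bk : Module.Basis (Fin 2) k ρ.residual.V := Algebra.TensorProduct.basis k b
  have hres : ∀ σ : Γℚ, LinearMap.toMatrix bk bk (ρ.residual.ρ σ) =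
      (LinearMap.toMatrix b b (ρ.ρ σ)).map (algebraMap T k) :=
    fun σ => LinearMap.toMatrix_baseChange k (ρ.ρ σ) b b
  have hsurj : Function.Surjective (residue T) := IsLocalRing.residue_surjective
  have key : (⊤ : Submodule T (Matrix (Fin 2) (Fin 2) T)) ≤
      𝒜 ⊔ maximalIdeal T • (⊤ : Submodule T (Matrix (Fin 2) (Fin 2) T)) := by
    intro M _
    obtain ⟨a, ha⟩ := Fermat.Agent.S53.Burnside.exists_finsupp_sum_toMatrix_eq ρ.residual h bk
      (M.map (algebraMap T k))
    choose s hs using hsurj
    set M' : Matrix (Fin 2) (Fin 2) T :=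
      ∑ σ ∈ a.support, s (a σ) • LinearMap.toMatrix b b (ρ.ρ σ) with hM'
    have hM'mem : M' ∈ 𝒜 := by
      refine Submodule.sum_mem _ fun σ _ => Submodule.smul_mem _ _ ?_
      exact Submodule.subset_span ⟨σ, rfl⟩
    have hD : ∀ i j, (M - M') i j ∈ maximalIdeal T := by
      intro i j
      rw [← residue_eq_zero_iff, Matrix.sub_apply, map_sub, sub_eq_zero]
      have h1 := congrFun (congrFun ha i) j
      rw [Finsupp.sum, Matrix.sum_apply] at h1
      rw [hM', Matrix.sum_apply, map_sum]
      rw [Matrix.map_apply] at h1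
      rw [show residue T (M i j) = algebraMap T k (M i j) from rfl, ← h1]
      refine Finset.sum_congr rfl fun σ _ => ?_
      rw [Matrix.smul_apply, Matrix.smul_apply, hres σ, Matrix.map_apply, smul_eq_mul,
        smul_eq_mul, map_mul, hs]
      rfl
    have hsplit : M = M' + (M - M') := by abel
    rw [hsplit]
    exact Submodule.add_mem_sup hM'mem (mem_smul_top_of_entries _ hD)
  have hfg : (⊤ : Submodule T (Matrix (Fin 2) (Fin 2) T)).FG := Module.Finite.fg_top
  have hjac : maximalIdeal T ≤ Ideal.jacobson ⊥ := IsLocalRing.maximalIdeal_le_jacobson ⊥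
  exact top_le_iff.mp (Submodule.le_of_le_smul_of_le_jacobson_bot hfg hjac key)

/-- **Step B of S31.**  If `tr ρ(τ g) = tr ρ(g)` for all `g` and the residual representation is
absolutely irreducible, then `ρ(τ) = 1`. -/
theorem eq_one_of_trace_mul_eq (ρ : GaloisRepAdic T) (h : ρ.residual.IsAbsolutelyIrreducible)
    (τ : Γℚ)
    (hτ : ∀ g : Γℚ, LinearMap.trace T ρ.V (ρ.ρ (τ * g)) = LinearMap.trace T ρ.V (ρ.ρ g)) :
    ρ.ρ τ = 1 := by
  classical
  let b : Module.Basis (Fin 2) T ρ.V := Module.finBasisOfFinrankEq T ρ.V ρ.finrank_eq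
  set A : Matrix (Fin 2) (Fin 2) T := LinearMap.toMatrix b b (ρ.ρ τ) with hA
  -- the functional `X ↦ tr ((A - 1) X)` vanishes on the span of the `ρ g`
  let φ : Matrix (Fin 2) (Fin 2) T →ₗ[T] T :=
    (Matrix.traceLinearMap (Fin 2) T T).comp (LinearMap.mulLeft T (A - 1))
  have hφ : ∀ g : Γℚ, φ (LinearMap.toMatrix b b (ρ.ρ g)) = 0 := by
    intro g
    have h1 := hτ g
    rw [LinearMap.trace_eq_matrix_trace T b, LinearMap.trace_eq_matrix_trace T b, map_mul,
      Module.End.mul_eq_comp, LinearMap.toMatrix_comp b b b] at h1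
    show Matrix.trace ((A - 1) * LinearMap.toMatrix b b (ρ.ρ g)) = 0
    rw [sub_mul, one_mul, Matrix.trace_sub, hA, h1, sub_self]
  have hφ0 : φ = 0 := by
    have hle : Submodule.span T (Set.range fun σ : Γℚ => LinearMap.toMatrix b b (ρ.ρ σ)) ≤
        LinearMap.ker φ := by
      refine Submodule.span_le.mpr ?_
      rintro _ ⟨g, rfl⟩
      exact hφ g
    rw [span_range_toMatrix_eq_top ρ h b, top_le_iff, LinearMap.ker_eq_top] at hle
    exact hle
  have hA1 : A = 1 := by
    ext i j
    have h1 : φ (Matrix.single j i (1 : T)) = 0 := by rw [hφ0]; rfl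
    have h2 : φ (Matrix.single j i (1 : T)) = (A - 1) i j := by
      show Matrix.trace ((A - 1) * Matrix.single j i (1 : T)) = (A - 1) i j
      rw [Matrix.trace_mul_comm, Matrix.trace_single_mul, one_smul]
    rw [h2, Matrix.sub_apply, sub_eq_zero] at h1
    exact h1
  apply (LinearMap.toMatrix b b).injective
  rw [← hA, hA1, LinearMap.toMatrix_one]

end Fermat.Agent.S31.SpanB
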