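/-
S31 — TraceCore.lean (helper89).  Leaf [L1] of the S31 route, in the binding shape of
`S31/Defs.lean`: the Prop `TraceCoreStatement`, from helper88's landed `S31/SpanB.lean`
(Burnside from the frozen S53 closure + Nakayama + the trace form on `M₂(T)`).
-/
import Mathlib
import Fermat.Agent.S31.Defs
import Fermat.Agent.S31.SpanB

set_option autoImplicit false

namespace Fermat.Agent.S31

/-- **[L1]** the leaf `TraceCoreStatement` of `S31/Defs.lean`: if the residual representation is
absolutely irreducible and `tr ρ(τ g) = tr ρ(g)` for all `g`, then `ρ(τ) = 1`. -/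
theorem traceCoreStatement : TraceCoreStatement :=
  fun _ _ _ ρ h τ hτ => SpanB.eq_one_of_trace_mul_eq ρ h τ hτ

end Fermat.Agent.S31
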