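import Mathlib
import Fermat.Agent.S31.Defs

/-!
# S31, leaf [L2]: continuity of the trace and traces of powers in rank two

* `traceContStatement : TraceContStatement` — at every depth `n` the trace of an adic Galois
  representation modulo `𝔪 ^ n` only depends on the restriction to a finite level.
* `lucasTraceStatement : LucasTraceStatement` — in rank two, `tr (M ^ j) = V_j(a, u)` if
  `charpoly M = X² - a X + u`.
-/

set_option autoImplicit false

open Polynomial

namespace Fermat.Agent.S31

open Fermat.Agent.S29 (Qb GQ)
open Fermat.Agent.S29.Lucas (lucasV lucasV_zero lucasV_one lucasV_add_two)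

namespace TraceLevel

/-- A linear map preserves `I • ⊤`. -/
theorem map_mem_smul_top {T : Type*} [CommRing T] {V : Type*} [AddCommGroup V] [Module T V]
    (I : Ideal T) (f : Module.End T V) {x : V} (hx : x ∈ I • (⊤ : Submodule T V)) :
    f x ∈ I • (⊤ : Submodule T V) := by
  refine Submodule.smul_induction_on (p := fun x => f x ∈ I • (⊤ : Submodule T V)) hx ?_ ?_
  · intro r hr m _
    rw [map_smul]
    exact Submodule.smul_mem_smul hr Submodule.mem_top
  · intro x y hx hy
    rw [map_add]
    exact Submodule.add_mem _ hx hy

/-- The trace of an endomorphism of a finite free module with image in `I • ⊤` lies in `I`. -/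
theorem trace_mem_of_forall_mem {T : Type*} [CommRing T] {V : Type*} [AddCommGroup V]
    [Module T V] [Module.Free T V] [Module.Finite T V] (I : Ideal T) (f : Module.End T V)
    (hf : ∀ v : V, f v ∈ I • (⊤ : Submodule T V)) : LinearMap.trace T V f ∈ I := by
  classical
  rcases subsingleton_or_nontrivial T with hT | hT
  · have h0 : LinearMap.trace T V f = 0 := Subsingleton.elim _ _
    rw [h0]
    exact I.zero_mem
  let b := Module.Free.chooseBasis T V
  have key : ∀ x ∈ I • (⊤ : Submodule T V), ∀ i, b.repr x i ∈ I := by
    intro x hx i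
    refine Submodule.smul_induction_on (p := fun x => b.repr x i ∈ I) hx ?_ ?_
    · intro r hr m _
      rw [map_smul, Finsupp.smul_apply, smul_eq_mul]
      exact I.mul_mem_right _ hr
    · intro x y hx hy
      rw [map_add, Finsupp.add_apply]
      exact I.add_mem hx hy
  rw [LinearMap.trace_eq_matrix_trace T b f, Matrix.trace]
  refine Ideal.sum_mem _ fun i _ => ?_
  rw [Matrix.diag_apply, LinearMap.toMatrix_apply]
  exact key _ (hf (b i)) i

end TraceLevel

/-- **[L2a]** Adic continuity of the trace. -/
theorem traceContStatement : TraceContStatement := by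
  intro T _ _ ρ n
  obtain ⟨L, hL, h⟩ := ρ.isAdicContinuous n
  refine ⟨L, hL, fun g g' hgg' => ?_⟩
  have hσ : ∀ x ∈ L, (g'⁻¹ * g) x = x := by
    intro x hx
    rw [AlgEquiv.mul_apply, hgg' x hx, AlgEquiv.aut_inv, AlgEquiv.symm_apply_apply]
  have h1 := h (g'⁻¹ * g) hσ
  rw [← map_sub]
  apply TraceLevel.trace_mem_of_forall_mem
  intro v
  have h2 : (ρ.ρ g - ρ.ρ g') v = ρ.ρ g' (ρ.ρ (g'⁻¹ * g) v - v) := by
    rw [map_sub, ← Module.End.mul_apply, ← map_mul, mul_inv_cancel_left, LinearMap.sub_apply]
  rw [h2]
  exact TraceLevel.map_mem_smul_top _ (ρ.ρ g') (h1 v)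

/-- **[L2b]** Traces of powers in rank two are given by the Lucas sequence. -/
theorem lucasTraceStatement : LucasTraceStatement := by
  intro T _ V _ _ _ _ hrank M a u hchar j
  rcases subsingleton_or_nontrivial T with hT | hT
  · exact Subsingleton.elim _ _
  -- Cayley–Hamilton
  have hCH : M ^ 2 = a • M - u • (1 : Module.End T V) := by
    have h := LinearMap.aeval_self_charpoly M
    rw [hchar, map_add, map_sub, map_mul, map_pow, aeval_X, aeval_C, aeval_C,
      Algebra.algebraMap_eq_smul_one, Algebra.algebraMap_eq_smul_one, smul_mul_assoc, one_mul,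
      sub_add, sub_eq_zero] at h
    exact h
  -- `tr M = a`
  have htr1 : LinearMap.trace T V M = a := by
    classical
    let b := Module.Free.chooseBasis T V
    have hcard : Fintype.card (Module.Free.ChooseBasisIndex T V) = 2 := by
      rw [← Module.finrank_eq_card_chooseBasisIndex, hrank]
    haveI : Nonempty (Module.Free.ChooseBasisIndex T V) :=
      Fintype.card_pos_iff.mp (by omega)
    rw [LinearMap.trace_eq_matrix_trace T b M, Matrix.trace_eq_neg_charpoly_coeff,
      LinearMap.charpoly_toMatrix, hchar, hcard]
    simp [coeff_X_pow, coeff_C]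
  induction j using Nat.twoStepInduction with
  | zero =>
    rw [pow_zero, LinearMap.trace_one, hrank, lucasV_zero]
    norm_num
  | one => rw [pow_one, htr1, lucasV_one]
  | more j ih1 ih2 =>
    have h3 : M ^ (j + 2) = a • M ^ (j + 1) - u • M ^ j := by
      rw [pow_add, hCH, mul_sub, mul_smul_comm, mul_smul_comm, mul_one, ← pow_succ]
    rw [h3, map_sub, map_smul, map_smul, ih1, ih2, lucasV_add_two, smul_eq_mul, smul_eq_mul]

end Fermat.Agent.S31
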