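import Mathlib
import Fermat.Agent.S31.Defs

/-!
# S31, leaf [L5]: Artin–Rees over `ℤ` for a family of endomorphisms of a finite free `ℤ`-module

`artinReesStatement : ArtinReesStatement` — for an additive family `ev : PP → End_ℤ(Λ)` there is
`c` such that every `ev P` which is pointwise divisible by `p ^ n` equals `p ^ (n - c) • ev Q`
for some `Q`.
-/

set_option autoImplicit false

namespace Fermat.Agent.S31

namespace ArtinRees

open scoped Pointwise

/-- Pointwise divisibility of an endomorphism of a finite free `ℤ`-module by an integer gives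
divisibility in the endomorphism ring. -/
theorem exists_smul_eq_of_pointwise {Λ : Type} [AddCommGroup Λ] [Module.Free ℤ Λ]
    [Module.Finite ℤ Λ] (f : Module.End ℤ Λ) (a : ℤ)
    (h : ∀ u : Λ, ∃ w : Λ, f u = a • w) : ∃ e : Module.End ℤ Λ, f = a • e := by
  classical
  let b := Module.Free.chooseBasis ℤ Λ
  choose w hw using fun i => h (b i)
  refine ⟨b.constr ℤ w, ?_⟩
  apply b.ext
  intro i
  rw [LinearMap.smul_apply, Module.Basis.constr_basis, hw i]

/-- Membership in `(a) ^ n • N` for a principal ideal of `ℤ`. -/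
theorem mem_span_pow_smul_iff {E : Type*} [AddCommGroup E] (N : Submodule ℤ E) (a : ℤ) (n : ℕ)
    (x : E) : x ∈ (Ideal.span {a} : Ideal ℤ) ^ n • N ↔ ∃ y ∈ N, x = a ^ n • y := by
  rw [Ideal.span_singleton_pow, Submodule.ideal_span_singleton_smul,
    Submodule.mem_smul_pointwise_iff_exists]
  constructor
  · rintro ⟨y, hy, rfl⟩
    exact ⟨y, hy, rfl⟩
  · rintro ⟨y, hy, rfl⟩
    exact ⟨y, hy, rfl⟩

end ArtinRees

open ArtinRees in
/-- **[L5]** Artin–Rees over `ℤ`. -/
theorem artinReesStatement : ArtinReesStatement := by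
  intro Λ _ _ _ PP _ ev p
  let R : Submodule ℤ (Module.End ℤ Λ) := LinearMap.range ev.toIntLinearMap
  obtain ⟨c, hc⟩ := Ideal.exists_pow_inf_eq_pow_smul (Ideal.span {(p : ℤ)} : Ideal ℤ) R
  refine ⟨c, fun n P hP => ?_⟩
  by_cases hn : c ≤ n
  · obtain ⟨e, he⟩ := exists_smul_eq_of_pointwise (ev P) ((p : ℤ) ^ n) hP
    have h1 : ev P ∈ (Ideal.span {(p : ℤ)} : Ideal ℤ) ^ n • (⊤ : Submodule ℤ (Module.End ℤ Λ)) ⊓ R := by
      refine ⟨?_, ⟨P, rfl⟩⟩
      rw [SetLike.mem_coe, mem_span_pow_smul_iff]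
      exact ⟨e, Submodule.mem_top, he⟩
    rw [hc n hn, mem_span_pow_smul_iff] at h1
    obtain ⟨y, hy, hyP⟩ := h1
    obtain ⟨Q, hQ⟩ := hy.2
    refine ⟨Q, ?_⟩
    rw [hyP, ← hQ]
    rfl
  · refine ⟨P, ?_⟩
    have : n - c = 0 := by omega
    rw [this, pow_zero, one_smul]

end Fermat.Agent.S31
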