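/-
S31, leaf [L6] (owner: helper67): `HeckeCompareStatement N S`.

Every `ℤ`-linear relation between powers of the `T_ℓ` (`ℓ ∤ N`, `ℓ ∉ S`) which holds on the
parabolic lattice `Lpar N = Hom_par(Γ₀(N), ℤ)` holds on `S₂(Γ₀(N))`, i.e. in
`CuspForm.heckeAlgebra N 2 S`.

Route.  Put `V := Hom(Γ₀(N), ℂ)` and let `TH i` be `S16.heckeTHom` as a `ℂ`-linear endomorphism
of `V`.  With `evH P := Σ_i P_i(TH i)`:
* the period map intertwines `evC P` with `evH P` (`S16.periodMap_heckeTLin`);
* complexification `Lpar N → V` intertwines `evL P` with `evH P` (`CohLat.toC_heckeTHom`);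
* every complex parabolic class is a `ℂ`-combination of complexified integral parabolic classes
  (`LiftLemma.mem_span_toC`), so `evL P = 0` forces `evH P = 0` on parabolic classes;
* the period map is injective with parabolic values (S21).
-/
import Mathlib
import Fermat.Agent.S31.Defs
import Fermat.Agent.S16.HeckePeriod
import Fermat.Agent.S16.LiftLemma
import Fermat.Agent.S21.Main
import Fermat.Agent.S21.Parabolic
import Fermat.Agent.S22.GammaFG
import Fermat.Agent.S41.CohLat
import Fermat.Agent.S41.FSEigen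

set_option autoImplicit false

open ModularCurve ModularCurve.Period CongruenceSubgroup Polynomial

namespace Fermat.Agent.S31

noncomputable section

open Fermat.Agent.S29 (heckeLpar coe_heckeLpar_apply)
open Fermat.Agent.S16 (heckeTHom tData)
open Fermat.Agent.S16 (LiftLemma.toC LiftLemma.mem_span_toC LiftLemma.killHoms)
open Fermat.Agent.S41 (Lpar)

namespace HeckeCompare

/-- Transport of polynomial expressions along an intertwining additive map: if `φ ∘ A = B ∘ φ`
then `φ ∘ Q(A) = Q(B) ∘ φ` for every integer polynomial `Q`. -/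
theorem map_aeval_apply {R₁ R₂ M₁ M₂ : Type*} [CommRing R₁] [CommRing R₂]
    [AddCommGroup M₁] [AddCommGroup M₂] [Module R₁ M₁] [Module R₂ M₂]
    (φ : M₁ →+ M₂) (A : Module.End R₁ M₁) (B : Module.End R₂ M₂)
    (h : ∀ w, φ (A w) = B (φ w)) (Q : Polynomial ℤ) (w : M₁) :
    φ (Polynomial.aeval A Q w) = Polynomial.aeval B Q (φ w) := by
  revert w
  induction Q using Polynomial.induction_on with
  | C a =>
    intro w
    rw [Polynomial.aeval_C, Polynomial.aeval_C, Module.algebraMap_end_apply,
      Module.algebraMap_end_apply, map_zsmul]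
  | add p q hp hq =>
    intro w
    rw [map_add, map_add, LinearMap.add_apply, LinearMap.add_apply, map_add, hp, hq]
  | monomial n a ih =>
    intro w
    have hA : Polynomial.aeval A (C a * X ^ (n + 1)) = Polynomial.aeval A (C a * X ^ n) * A := by
      rw [pow_succ, ← mul_assoc, map_mul, Polynomial.aeval_X]
    have hB : Polynomial.aeval B (C a * X ^ (n + 1)) = Polynomial.aeval B (C a * X ^ n) * B := by
      rw [pow_succ, ← mul_assoc, map_mul, Polynomial.aeval_X]
    rw [hA, hB, Module.End.mul_apply, Module.End.mul_apply, ih, h]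

variable (N : ℕ) [NeZero N] (S : Set ℕ)

/-- `T_ℓ` on `Hom(Γ₀(N), ℂ)` as a `ℂ`-linear endomorphism. -/
def TH (i : HIdx N S) : Module.End ℂ (Additive (Gamma0 N) →+ ℂ) :=
  haveI : Fact (i.1).Prime := ⟨i.2.1⟩
  { toFun := fun ψ => heckeTHom N i.1 i.2.2.1 ψ
    map_add' := fun ψ χ => (tData N i.1 i.2.2.1).op_add ψ χ
    map_smul' := fun c ψ => (tData N i.1 i.2.2.1).op_smul c ψ }

omit [NeZero N] in
theorem TH_apply (i : HIdx N S) (ψ : Additive (Gamma0 N) →+ ℂ) :
    TH N S i ψ = (haveI : Fact (i.1).Prime := ⟨i.2.1⟩; heckeTHom N i.1 i.2.2.1 ψ) := rfl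

/-- Evaluation on `Hom(Γ₀(N), ℂ)`: `P ↦ Σ_ℓ P_ℓ(T_ℓ)`. -/
def evH : HPoly N S →+ Module.End ℂ (Additive (Gamma0 N) →+ ℂ) :=
  Finsupp.liftAddHom fun i : HIdx N S =>
    ((Polynomial.aeval (TH N S i) :
      Polynomial ℤ →ₐ[ℤ] Module.End ℂ (Additive (Gamma0 N) →+ ℂ)) :
      Polynomial ℤ →+ Module.End ℂ (Additive (Gamma0 N) →+ ℂ))

omit [NeZero N] in
theorem evH_single (i : HIdx N S) (Q : Polynomial ℤ) :
    evH N S (Finsupp.single i Q) = Polynomial.aeval (TH N S i) Q := by
  simp [evH]

/-- Complexification of integral parabolic classes, as an additive map. -/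
def toCHom : Lpar N →+ (Additive (Gamma0 N) →+ ℂ) where
  toFun y := LiftLemma.toC y.1
  map_zero' := by
    refine AddMonoidHom.ext fun γ => ?_
    simp
  map_add' y z := by
    refine AddMonoidHom.ext fun γ => ?_
    simp

omit [NeZero N] in
theorem toCHom_apply (y : Lpar N) : toCHom N y = LiftLemma.toC y.1 := rfl

omit [NeZero N] in
/-- Complexification intertwines `heckeLpar` with `TH`. -/
theorem toCHom_heckeLpar (i : HIdx N S) (y : Lpar N) :
    toCHom N (heckeLpar N i.1 i.2.1 i.2.2.1 y) = TH N S i (toCHom N y) := by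
  have : Fact (i.1).Prime := ⟨i.2.1⟩
  rw [toCHom_apply, toCHom_apply, TH_apply, coe_heckeLpar_apply]
  exact Fermat.Agent.S41.CohLat.toC_heckeTHom i.2.2.1 y.1

/-- Complexification intertwines `evL` with `evH`. -/
theorem toCHom_evL (P : HPoly N S) (y : Lpar N) :
    toCHom N (evL N S P y) = evH N S P (toCHom N y) := by
  induction P using Finsupp.induction_linear with
  | zero => simp
  | add P Q hP hQ =>
    rw [map_add, map_add, LinearMap.add_apply, LinearMap.add_apply, map_add, hP, hQ]
  | single i Q =>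
    rw [evL_single, evH_single]
    exact map_aeval_apply (toCHom N) _ _ (toCHom_heckeLpar N S i) Q y

/-- The period map intertwines `T_ℓ` on cusp forms with `TH`. -/
theorem periodMap_T (i : HIdx N S) (f : CuspForm (Gamma0 N) 2) :
    periodMap N (CuspForm.heckeTLin 2 i.2.1 i.2.2.1 f) = TH N S i (periodMap N f) := by
  have : Fact (i.1).Prime := ⟨i.2.1⟩
  rw [TH_apply]
  exact Fermat.Agent.S16.periodMap_heckeTLin i.2.1 i.2.2.1 f

/-- The period map intertwines `evC` with `evH`. -/
theorem periodMap_evC (P : HPoly N S) (f : CuspForm (Gamma0 N) 2) :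
    periodMap N ((evC N S P : Module.End ℂ (CuspForm (Gamma0 N) 2)) f) =
      evH N S P (periodMap N f) := by
  induction P using Finsupp.induction_linear with
  | zero =>
    rw [map_zero, map_zero]
    show periodMap N ((0 : Module.End ℂ (CuspForm (Gamma0 N) 2)) f) = _
    rw [LinearMap.zero_apply, LinearMap.zero_apply]
    exact (Fermat.Agent.S21.periodMapLinear N).map_zero
  | add P Q hP hQ =>
    rw [map_add, map_add, LinearMap.add_apply]
    show periodMap N (((evC N S P : Module.End ℂ (CuspForm (Gamma0 N) 2)) +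
      (evC N S Q : Module.End ℂ (CuspForm (Gamma0 N) 2))) f) = _
    rw [LinearMap.add_apply, Fermat.Agent.S21.periodMap_add, hP, hQ]
  | single i Q =>
    rw [evC_single, evH_single, Polynomial.aeval_subalgebra_coe, CuspForm.heckeAlgebra.coe_T]
    exact map_aeval_apply ((Fermat.Agent.S21.periodMapLinear N).toAddMonoidHom) _ _
      (periodMap_T N S i) Q f

/-- If `evL P = 0` then `evH P` kills every complex parabolic class. -/
theorem evH_eq_zero_of_evL (P : HPoly N S) (hP : evL N S P = 0)
    {ψ : Additive (Gamma0 N) →+ ℂ} (hψ : ψ ∈ parabolicHoms ℂ (Gamma0 N) ℂ) :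
    evH N S P ψ = 0 := by
  have := Fermat.Agent.S22.gamma0_fg N
  have hspan := LiftLemma.mem_span_toC (Fermat.Agent.S41.CohLat.parSet N) ψ
    (fun g hg => hψ g hg)
  have hle : Submodule.span ℂ ((fun φ : Additive (Gamma0 N) →+ ℤ => LiftLemma.toC φ) ''
      (LiftLemma.killHoms (Fermat.Agent.S41.CohLat.parSet N) : Set _)) ≤
      LinearMap.ker (evH N S P) := by
    rw [Submodule.span_le]
    rintro _ ⟨φ, hφ, rfl⟩
    have hφ' : φ ∈ Lpar N := by
      show φ ∈ parabolicHoms ℤ (Gamma0 N) ℤ
      rw [Fermat.Agent.S41.CohLat.parabolicHoms_eq_killHoms]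
      exact hφ
    have h1 := toCHom_evL N S P ⟨φ, hφ'⟩
    rw [hP, LinearMap.zero_apply, map_zero] at h1
    exact h1.symm
  exact hle hspan

end HeckeCompare

open HeckeCompare in
/-- **[L6]** Every `ℤ`-linear relation between powers of the `T_ℓ` on `Lpar N` holds in the Hecke
algebra of cusp forms. -/
theorem heckeCompareStatement (N : ℕ) [NeZero N] (S : Set ℕ) : HeckeCompareStatement N S := by
  intro P hP
  apply Subtype.ext
  refine LinearMap.ext fun f => ?_
  by_contra hne
  refine Fermat.Agent.S41.FSEigen.periodMap_ne_zero _ hne ?_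
  rw [periodMap_evC N S P f]
  exact evH_eq_zero_of_evL N S P hP (Fermat.Agent.S21.periodMap_mem_parabolicHoms N f)

end

end Fermat.Agent.S31
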